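/-
DELTA / I6 (helper3), package (K), file 1: **the formal logarithmic derivative and its reduction**.

For a field `R`, `dlsLog x = θ x / x` (`θ = q d/dq`) on `R((q))`: additivity, scale invariance,
compatibility with `q ↦ q^d` and `q ↦ c q`.

For `(K, A, π : A → k)` (`A` a valuation subring of `K`) the relation `DlsRedTo A π x y`:
"`y ∈ k((q))ˣ` is a reduction of `x ∈ K((q))ˣ` up to a constant", i.e. `x = c · a / b` with
`a, b ∈ A((q))`, `ā, b̄ ≠ 0`, `y = ā / b̄`.  Then `θ x / x` is Gauss-integral and its residue is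
`θ y / y` (`DlsRedTo.rho_log`); `y` is unique up to `kˣ`; the relation is multiplicative and stable
under `q ↦ q^d`, `q ↦ ζ q` and the multiplicative Hecke operator `tkrTilde`.
-/
import Mathlib
import Fermat.Agent.Lib.T1.Inst.GaussA
import Fermat.Agent.Lib.T1.Kron.Tilde
import Fermat.Agent.Lib.Igusa.DeltaQuot

set_option autoImplicit false
set_option linter.unusedSectionVars false
set_option linter.unusedVariables false

namespace Fermat.Agent.Delta

open ModularCurve HahnSeries Fermat.Agent.T1 Fermat.Agent.S23Lib Fermat.Agent.Igusa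

noncomputable section

/-! ### The logarithmic derivative -/

section Log

variable {R : Type*} [Field R]

/-- the logarithmic derivative `θ x / x`, `θ = q d/dq` -/
def dlsLog (x : LaurentSeries R) : LaurentSeries R := qTheta x / x

theorem dlsLog_zero : dlsLog (0 : LaurentSeries R) = 0 := by
  rw [dlsLog, div_zero]

theorem dls_qTheta_one : qTheta (1 : LaurentSeries R) = 0 := by
  have h : (1 : LaurentSeries R) = HahnSeries.C (1 : R) := by rw [map_one]
  rw [h, qTheta_C]

theorem dlsLog_one : dlsLog (1 : LaurentSeries R) = 0 := by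
  rw [dlsLog, dls_qTheta_one, zero_div]

theorem dlsLog_C (c : R) : dlsLog (HahnSeries.C c : LaurentSeries R) = 0 := by
  rw [dlsLog, qTheta_C, zero_div]

theorem dlsLog_mul {x y : LaurentSeries R} (hx : x ≠ 0) (hy : y ≠ 0) :
    dlsLog (x * y) = dlsLog x + dlsLog y := by
  rw [dlsLog, dlsLog, dlsLog, qTheta_mul]
  field_simp

theorem dlsLog_C_mul {c : R} (hc : c ≠ 0) (x : LaurentSeries R) :
    dlsLog (HahnSeries.C c * x) = dlsLog x := by
  rcases eq_or_ne x 0 with rfl | hx
  · rw [mul_zero]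
  · have hC : (HahnSeries.C c : LaurentSeries R) ≠ 0 := by
      rw [Ne, map_eq_zero]; exact hc
    rw [dlsLog_mul hC hx, dlsLog_C, zero_add]

theorem dlsLog_inv (x : LaurentSeries R) : dlsLog x⁻¹ = -dlsLog x := by
  rcases eq_or_ne x 0 with rfl | hx
  · rw [inv_zero, dlsLog_zero, neg_zero]
  · have h := dlsLog_mul hx (inv_ne_zero hx)
    rw [mul_inv_cancel₀ hx, dlsLog_one] at h
    exact eq_neg_of_add_eq_zero_right h.symm

theorem dlsLog_div {x y : LaurentSeries R} (hx : x ≠ 0) (hy : y ≠ 0) :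
    dlsLog (x / y) = dlsLog x - dlsLog y := by
  rw [div_eq_mul_inv, dlsLog_mul hx (inv_ne_zero hy), dlsLog_inv, sub_eq_add_neg]

theorem dlsLog_pow (x : LaurentSeries R) (n : ℕ) : dlsLog (x ^ n) = n • dlsLog x := by
  rcases eq_or_ne x 0 with rfl | hx
  · rcases Nat.eq_zero_or_pos n with rfl | hn
    · rw [pow_zero, dlsLog_one, zero_smul]
    · rw [zero_pow hn.ne', dlsLog_zero, smul_zero]
  · induction n with
    | zero => rw [pow_zero, dlsLog_one, zero_smul]
    | succ n ih => rw [pow_succ, dlsLog_mul (pow_ne_zero n hx) hx, ih, succ_nsmul]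

theorem dlsLog_prod {ι : Type*} (s : Finset ι) (f : ι → LaurentSeries R) (hf : ∀ i ∈ s, f i ≠ 0) :
    dlsLog (∏ i ∈ s, f i) = ∑ i ∈ s, dlsLog (f i) := by
  classical
  induction s using Finset.induction_on with
  | empty => rw [Finset.prod_empty, Finset.sum_empty, dlsLog_one]
  | insert i s hi ih =>
    rw [Finset.prod_insert hi, Finset.sum_insert hi,
      dlsLog_mul (hf i (Finset.mem_insert_self i s))
        (Finset.prod_ne_zero_iff.mpr fun j hj => hf j (Finset.mem_insert_of_mem hj)),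
      ih fun j hj => hf j (Finset.mem_insert_of_mem hj)]

theorem dlsLog_qExpand (d : ℕ) [NeZero d] (x : LaurentSeries R) :
    dlsLog (qExpand R d x) = (d : LaurentSeries R) * qExpand R d (dlsLog x) := by
  rw [dlsLog, dlsLog, qTheta_qExpand, map_div₀, mul_div_assoc]

theorem dls_qTheta_tw (c : Rˣ) (x : LaurentSeries R) : qTheta (tkrTw c x) = tkrTw c (qTheta x) := by
  ext n
  rw [qTheta_coeff, tkrTw_coeff, tkrTw_coeff, qTheta_coeff]
  ring

theorem dlsLog_tw (c : Rˣ) (x : LaurentSeries R) : dlsLog (tkrTw c x) = tkrTw c (dlsLog x) := by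
  rw [dlsLog, dlsLog, dls_qTheta_tw, map_div₀]

end Log

/-! ### Reduction up to a constant -/

section Red

variable {K : Type*} [Field K] (A : ValuationSubring K) {k : Type*} [Field k] (π : ↥A →+* k)

/-- `y` is a reduction of `x` up to a constant: `x = c · a / b`, `y = ā / b̄` with `a, b ∈ A((q))`,
`ā, b̄ ≠ 0` -/
def DlsRedTo (x : LaurentSeries K) (y : LaurentSeries k) : Prop :=
  ∃ (c : K) (a b : LaurentSeries ↥A), c ≠ 0 ∧ tbRed π a ≠ 0 ∧ tbRed π b ≠ 0 ∧
    x * tbInc A b = HahnSeries.C c * tbInc A a ∧ y * tbRed π b = tbRed π a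

variable {A π}

theorem DlsRedTo.ne_zero_right {x : LaurentSeries K} {y : LaurentSeries k}
    (h : DlsRedTo A π x y) : y ≠ 0 := by
  obtain ⟨c, a, b, hc, ha, hb, e, e'⟩ := h
  rintro rfl
  rw [zero_mul] at e'
  exact ha e'.symm

theorem DlsRedTo.ne_zero_left {x : LaurentSeries K} {y : LaurentSeries k}
    (h : DlsRedTo A π x y) : x ≠ 0 := by
  obtain ⟨c, a, b, hc, ha, hb, e, e'⟩ := h
  rintro rfl
  rw [zero_mul] at e
  have hC : (HahnSeries.C c : LaurentSeries K) ≠ 0 := by
    rw [Ne, map_eq_zero]; exact hc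
  exact mul_ne_zero hC (tbInc_ne_zero_of_red A π ha) e.symm

theorem dls_inc_qTheta (a : LaurentSeries ↥A) : tbInc A (qTheta a) = qTheta (tbInc A a) :=
  coeffMap_qTheta _ a

theorem dls_red_qTheta (a : LaurentSeries ↥A) : tbRed π (qTheta a) = qTheta (tbRed π a) :=
  coeffMap_qTheta _ a

/-- the logarithmic derivative of an integral series with non-zero reduction -/
theorem dls_log_inc {a : LaurentSeries ↥A} (ha : tbRed π a ≠ 0) :
    TbGauss A π (dlsLog (tbInc A a)) ∧
      tbRhoFun A π (dlsLog (tbInc A a)) = dlsLog (tbRed π a) := by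
  have ha' : tbInc A a ≠ 0 := tbInc_ne_zero_of_red A π ha
  have e : dlsLog (tbInc A a) * tbInc A a = tbInc A (qTheta a) := by
    rw [dlsLog, dls_inc_qTheta, div_mul_cancel₀ _ ha']
  exact ⟨⟨qTheta a, a, ha, e⟩, by rw [tbRhoFun_eq A π ha e, dls_red_qTheta, dlsLog]⟩

/-- **the logarithmic derivative of a function with a reduction is Gauss-integral, with residue
the logarithmic derivative of the reduction** -/
theorem DlsRedTo.rho_log {x : LaurentSeries K} {y : LaurentSeries k} (h : DlsRedTo A π x y) :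
    TbGauss A π (dlsLog x) ∧ tbRhoFun A π (dlsLog x) = dlsLog y := by
  obtain ⟨c, a, b, hc, ha, hb, e, e'⟩ := h
  have ha' : tbInc A a ≠ 0 := tbInc_ne_zero_of_red A π ha
  have hb' : tbInc A b ≠ 0 := tbInc_ne_zero_of_red A π hb
  have hx : x = HahnSeries.C c * (tbInc A a / tbInc A b) := by
    rw [mul_div_assoc', ← e, mul_div_cancel_right₀ _ hb']
  have hy : y = tbRed π a / tbRed π b := by
    rw [← e', mul_div_cancel_right₀ _ hb]
  obtain ⟨g1, r1⟩ := dls_log_inc (π := π) ha
  obtain ⟨g2, r2⟩ := dls_log_inc (π := π) hb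
  have hlog : dlsLog x = dlsLog (tbInc A a) + -dlsLog (tbInc A b) := by
    rw [hx, dlsLog_C_mul hc, dlsLog_div ha' hb', sub_eq_add_neg]
  have g2' : TbGauss A π (-dlsLog (tbInc A b)) := (tbGaussSubring A π).neg_mem g2
  have r2' : tbRhoFun A π (-dlsLog (tbInc A b)) = -dlsLog (tbRed π b) := by
    have := (tbRho A π).map_neg ⟨_, g2⟩
    rw [tbRho_apply, tbRho_apply] at this
    rw [← r2]
    exact this
  refine ⟨hlog ▸ (tbGaussSubring A π).add_mem g1 g2', ?_⟩
  rw [hlog, tbRhoFun_add A π g1 g2', r1, r2', hy, dlsLog_div ha hb, sub_eq_add_neg]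

theorem DlsRedTo.gauss_log {x : LaurentSeries K} {y : LaurentSeries k} (h : DlsRedTo A π x y) :
    TbGauss A π (qTheta x / x) := h.rho_log.1

theorem DlsRedTo.rho_log_eq {x : LaurentSeries K} {y : LaurentSeries k} (h : DlsRedTo A π x y) :
    tbRhoFun A π (qTheta x / x) = qTheta y / y := h.rho_log.2

/-- Gauss units reduce to their residue -/
theorem dls_redTo_of_gauss {x : LaurentSeries K} (hx : TbGauss A π x)
    (h0 : tbRhoFun A π x ≠ 0) : DlsRedTo A π x (tbRhoFun A π x) := by
  obtain ⟨g, h, hh, e⟩ := hx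
  rw [tbRhoFun_eq A π hh e] at h0 ⊢
  have hg : tbRed π g ≠ 0 := fun h1 => h0 (by rw [h1, zero_div])
  exact ⟨1, g, h, one_ne_zero, hg, hh, by rw [map_one, one_mul, e], div_mul_cancel₀ _ hh⟩

theorem dls_redTo_C {c : K} (hc : c ≠ 0) : DlsRedTo A π (HahnSeries.C c) 1 :=
  ⟨c, 1, 1, hc, by rw [map_one]; exact one_ne_zero, by rw [map_one]; exact one_ne_zero,
    by rw [map_one], by rw [map_one, mul_one]⟩

theorem dls_redTo_one : DlsRedTo A π 1 1 := by
  have := dls_redTo_C (A := A) (π := π) (one_ne_zero (α := K))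
  rwa [map_one] at this

theorem DlsRedTo.mul {x x' : LaurentSeries K} {y y' : LaurentSeries k}
    (h : DlsRedTo A π x y) (h' : DlsRedTo A π x' y') : DlsRedTo A π (x * x') (y * y') := by
  obtain ⟨c, a, b, hc, ha, hb, e, e1⟩ := h
  obtain ⟨c', a', b', hc', ha', hb', e', e1'⟩ := h'
  refine ⟨c * c', a * a', b * b', mul_ne_zero hc hc', by rw [map_mul]; exact mul_ne_zero ha ha',
    by rw [map_mul]; exact mul_ne_zero hb hb', ?_, ?_⟩
  · rw [map_mul, map_mul, map_mul, mul_mul_mul_comm, e, e', mul_mul_mul_comm]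
  · rw [map_mul, map_mul, mul_mul_mul_comm, e1, e1']

theorem DlsRedTo.inv {x : LaurentSeries K} {y : LaurentSeries k}
    (h : DlsRedTo A π x y) : DlsRedTo A π x⁻¹ y⁻¹ := by
  have hx0 := h.ne_zero_left
  have hy0 := h.ne_zero_right
  obtain ⟨c, a, b, hc, ha, hb, e, e1⟩ := h
  have ha' : tbInc A a ≠ 0 := tbInc_ne_zero_of_red A π ha
  have hC : (HahnSeries.C c : LaurentSeries K) ≠ 0 := by
    rw [Ne, map_eq_zero]; exact hc
  have hCinv : (HahnSeries.C c : LaurentSeries K) * HahnSeries.C c⁻¹ = 1 := by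
    rw [← map_mul, mul_inv_cancel₀ hc, map_one]
  refine ⟨c⁻¹, b, a, inv_ne_zero hc, hb, ha, ?_, ?_⟩
  · apply mul_left_cancel₀ (mul_ne_zero hx0 hC)
    calc x * HahnSeries.C c * (x⁻¹ * tbInc A a)
        = (x * x⁻¹) * (HahnSeries.C c * tbInc A a) := by ring
      _ = x * tbInc A b := by rw [mul_inv_cancel₀ hx0, one_mul, e]
      _ = x * (HahnSeries.C c * HahnSeries.C c⁻¹) * tbInc A b := by rw [hCinv, mul_one]
      _ = x * HahnSeries.C c * (HahnSeries.C c⁻¹ * tbInc A b) := by ring
  · apply mul_left_cancel₀ hy0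
    rw [← mul_assoc, mul_inv_cancel₀ hy0, one_mul, e1]

theorem DlsRedTo.pow {x : LaurentSeries K} {y : LaurentSeries k}
    (h : DlsRedTo A π x y) (n : ℕ) : DlsRedTo A π (x ^ n) (y ^ n) := by
  induction n with
  | zero => rw [pow_zero, pow_zero]; exact dls_redTo_one
  | succ n ih => rw [pow_succ, pow_succ]; exact ih.mul h

theorem DlsRedTo.C_mul {x : LaurentSeries K} {y : LaurentSeries k}
    (h : DlsRedTo A π x y) {c : K} (hc : c ≠ 0) : DlsRedTo A π (HahnSeries.C c * x) y := by
  have := (dls_redTo_C (A := A) (π := π) hc).mul h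
  rwa [one_mul] at this

theorem DlsRedTo.prod {ι : Type*} (s : Finset ι) {f : ι → LaurentSeries K}
    {g : ι → LaurentSeries k} (h : ∀ i ∈ s, DlsRedTo A π (f i) (g i)) :
    DlsRedTo A π (∏ i ∈ s, f i) (∏ i ∈ s, g i) := by
  classical
  induction s using Finset.induction_on with
  | empty => rw [Finset.prod_empty, Finset.prod_empty]; exact dls_redTo_one
  | insert i s hi ih =>
    rw [Finset.prod_insert hi, Finset.prod_insert hi]
    exact (h i (Finset.mem_insert_self i s)).mul (ih fun j hj => h j (Finset.mem_insert_of_mem hj))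

/-- **uniqueness of the reduction up to a constant** -/
theorem DlsRedTo.unique {x : LaurentSeries K} {y y' : LaurentSeries k}
    (h : DlsRedTo A π x y) (h' : DlsRedTo A π x y') :
    ∃ u : k, u ≠ 0 ∧ y' = HahnSeries.C u * y := by
  have hy0 := h.ne_zero_right
  have hy0' := h'.ne_zero_right
  obtain ⟨c, a, b, hc, ha, hb, e, e1⟩ := h
  obtain ⟨c', a', b', hc', ha', hb', e', e1'⟩ := h'
  have hbK : tbInc A b ≠ 0 := tbInc_ne_zero_of_red A π hb
  have hbK' : tbInc A b' ≠ 0 := tbInc_ne_zero_of_red A π hb'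
  -- `c a b' = c' a' b`
  have key : HahnSeries.C c * tbInc A a * tbInc A b' = HahnSeries.C c' * tbInc A a' * tbInc A b := by
    rw [← e, ← e']; ring
  have hy : y = tbRed π a / tbRed π b := by rw [← e1, mul_div_cancel_right₀ _ hb]
  have hy' : y' = tbRed π a' / tbRed π b' := by rw [← e1', mul_div_cancel_right₀ _ hb']
  rcases A.mem_or_inv_mem (c / c') with hr | hr
  · -- `r = c / c' ∈ A`
    have k1 : tbInc A (HahnSeries.C ⟨c / c', hr⟩ * a * b') = tbInc A (a' * b) := by
      rw [map_mul, map_mul, map_mul, tbInc_C]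
      have hC' : (HahnSeries.C c' : LaurentSeries K) ≠ 0 := by
        rw [Ne, map_eq_zero]; exact hc'
      apply mul_left_cancel₀ hC'
      rw [show (HahnSeries.C c' : LaurentSeries K) * (HahnSeries.C (c / c') * tbInc A a * tbInc A b')
        = HahnSeries.C c' * HahnSeries.C (c / c') * tbInc A a * tbInc A b' by ring, ← map_mul,
        mul_div_cancel₀ _ hc', key]
      ring
    have k2 := congrArg (tbRed π) (tbInc_injective A k1)
    rw [map_mul, map_mul, map_mul, tbRed_C] at k2
    have hu : π ⟨c / c', hr⟩ ≠ 0 := by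
      intro h0
      rw [h0, map_zero, zero_mul, zero_mul] at k2
      exact mul_ne_zero ha' hb k2.symm
    refine ⟨π ⟨c / c', hr⟩, hu, ?_⟩
    rw [hy, hy', div_eq_iff hb', mul_div_assoc', div_mul_eq_mul_div, eq_div_iff hb, ← k2]
  · -- `r = c' / c ∈ A`
    have hr' : c' / c ∈ A := by rwa [inv_div] at hr
    have k1 : tbInc A (HahnSeries.C ⟨c' / c, hr'⟩ * a' * b) = tbInc A (a * b') := by
      rw [map_mul, map_mul, map_mul, tbInc_C]
      have hC : (HahnSeries.C c : LaurentSeries K) ≠ 0 := by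
        rw [Ne, map_eq_zero]; exact hc
      apply mul_left_cancel₀ hC
      rw [show (HahnSeries.C c : LaurentSeries K) * (HahnSeries.C (c' / c) * tbInc A a' * tbInc A b)
        = HahnSeries.C c * HahnSeries.C (c' / c) * tbInc A a' * tbInc A b by ring, ← map_mul,
        mul_div_cancel₀ _ hc, ← key]
      ring
    have k2 := congrArg (tbRed π) (tbInc_injective A k1)
    rw [map_mul, map_mul, map_mul, tbRed_C] at k2
    have hu : π ⟨c' / c, hr'⟩ ≠ 0 := by
      intro h0
      rw [h0, map_zero, zero_mul, zero_mul] at k2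
      exact mul_ne_zero ha hb' k2.symm
    refine ⟨(π ⟨c' / c, hr'⟩)⁻¹, inv_ne_zero hu, ?_⟩
    have hCu : (HahnSeries.C (π ⟨c' / c, hr'⟩) : LaurentSeries k) ≠ 0 := by
      rw [Ne, map_eq_zero]; exact hu
    rw [map_inv₀, eq_inv_mul_iff_mul_eq₀ hCu, hy, hy', mul_div_assoc', div_eq_iff hb',
      div_mul_eq_mul_div, eq_div_iff hb]
    rw [← k2]

end Red

end

end Fermat.Agent.Delta
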