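/-
DELTA / I6 (helper3), package (K), file 2: **the multiplicative Hecke operator and the logarithmic
derivative**.

* `dlsT ℓ = U_ℓ + ℓ V_ℓ` on Laurent series (the weight-2 Hecke operator on `q`-expansions);
* `dls_log_tilde` : over a field in which `ℓ ≠ 0`, containing a primitive `ℓ`-th root of unity,
  `dlog (T̃_ℓ y) = (U_ℓ + ℓ V_ℓ) (dlog y)` for the multiplicative operator `tkrTilde`;
* `DlsRedTo.tilde` : reductions up to constants are compatible with `T̃_ℓ`.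
-/
import Mathlib
import Fermat.Agent.Lib.Delta.Slope.Theta

set_option autoImplicit false
set_option linter.unusedSectionVars false
set_option linter.unusedVariables false

namespace Fermat.Agent.Delta

open ModularCurve HahnSeries Fermat.Agent.T1 Fermat.Agent.S23Lib Fermat.Agent.Igusa

noncomputable section

/-! ### The operators `U_ℓ` and `T_ℓ = U_ℓ + ℓ V_ℓ` on Laurent series -/

section Formal

variable {R : Type*} [CommRing R]

theorem dls_bddBelow_U (ℓ : ℕ) [NeZero ℓ] (f : LaurentSeries R) :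
    BddBelow (Function.support fun n : ℤ => f.coeff ((ℓ : ℤ) * n)) := by
  have hn : (0 : ℤ) < ℓ := by exact_mod_cast Nat.pos_of_ne_zero (NeZero.ne ℓ)
  by_cases h0 : f = 0
  · refine ⟨0, fun n hn' => ?_⟩
    rw [Function.mem_support, h0] at hn'
    exact absurd rfl hn'
  · refine ⟨min f.order 0, fun n hn' => ?_⟩
    rw [Function.mem_support] at hn'
    by_contra hlt
    rw [not_le] at hlt
    apply hn'
    apply HahnSeries.coeff_eq_zero_of_lt_order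
    have hk0 : n < 0 := lt_of_lt_of_le hlt (min_le_right _ _)
    have hk1 : n < f.order := lt_of_lt_of_le hlt (min_le_left _ _)
    have : (ℓ : ℤ) * n ≤ n := by nlinarith
    exact lt_of_le_of_lt this hk1

/-- the operator `U_ℓ`: `∑ a_n q^n ↦ ∑ a_{ℓ n} q^n` -/
def dlsU (ℓ : ℕ) [NeZero ℓ] (f : LaurentSeries R) : LaurentSeries R :=
  HahnSeries.ofSuppBddBelow _ (dls_bddBelow_U ℓ f)

@[simp]
theorem dlsU_coeff (ℓ : ℕ) [NeZero ℓ] (f : LaurentSeries R) (n : ℤ) :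
    (dlsU ℓ f).coeff n = f.coeff ((ℓ : ℤ) * n) := rfl

/-- the weight-2 Hecke operator `T_ℓ = U_ℓ + ℓ V_ℓ` on `q`-expansions -/
def dlsT (ℓ : ℕ) [NeZero ℓ] (f : LaurentSeries R) : LaurentSeries R :=
  dlsU ℓ f + (ℓ : LaurentSeries R) * qExpand R ℓ f

theorem dls_natCast_eq_C (n : ℕ) : ((n : ℕ) : LaurentSeries R) = HahnSeries.C (n : R) := by
  rw [map_natCast]

theorem dls_coeff_natCast_mul (n : ℕ) (f : LaurentSeries R) (m : ℤ) :
    (((n : ℕ) : LaurentSeries R) * f).coeff m = (n : R) * f.coeff m := by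
  rw [dls_natCast_eq_C, HahnSeries.C_mul_eq_smul, HahnSeries.coeff_smul, smul_eq_mul]

theorem dlsT_coeff_mul (ℓ : ℕ) [NeZero ℓ] (f : LaurentSeries R) (n : ℤ) :
    (dlsT ℓ f).coeff ((ℓ : ℤ) * n) = f.coeff ((ℓ : ℤ) * ((ℓ : ℤ) * n)) + (ℓ : R) * f.coeff n := by
  rw [dlsT, HahnSeries.coeff_add, dlsU_coeff, dls_coeff_natCast_mul, qExpand_coeff_mul]

theorem dlsT_coeff_of_not_dvd (ℓ : ℕ) [NeZero ℓ] (f : LaurentSeries R) {n : ℤ}
    (hn : ¬ (ℓ : ℤ) ∣ n) : (dlsT ℓ f).coeff n = f.coeff ((ℓ : ℤ) * n) := by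
  rw [dlsT, HahnSeries.coeff_add, dlsU_coeff, dls_coeff_natCast_mul,
    qExpand_coeff_of_not_dvd ℓ f hn, mul_zero, add_zero]

theorem dlsT_coeff (ℓ : ℕ) [NeZero ℓ] (f : LaurentSeries R) (n : ℤ) :
    (dlsT ℓ f).coeff n =
      f.coeff ((ℓ : ℤ) * n) + (ℓ : R) * (if (ℓ : ℤ) ∣ n then f.coeff (n / ℓ) else 0) := by
  have hℓ : (ℓ : ℤ) ≠ 0 := by exact_mod_cast NeZero.ne ℓ
  by_cases hn : (ℓ : ℤ) ∣ n
  · obtain ⟨m, rfl⟩ := hn
    rw [dlsT_coeff_mul, if_pos (dvd_mul_right _ _), Int.mul_ediv_cancel_left _ hℓ]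
  · rw [dlsT_coeff_of_not_dvd ℓ f hn, if_neg hn, mul_zero, add_zero]

theorem dlsU_add (ℓ : ℕ) [NeZero ℓ] (f g : LaurentSeries R) :
    dlsU ℓ (f + g) = dlsU ℓ f + dlsU ℓ g := by
  ext n
  rw [HahnSeries.coeff_add, dlsU_coeff, dlsU_coeff, dlsU_coeff, HahnSeries.coeff_add]

theorem dlsT_add (ℓ : ℕ) [NeZero ℓ] (f g : LaurentSeries R) :
    dlsT ℓ (f + g) = dlsT ℓ f + dlsT ℓ g := by
  rw [dlsT, dlsT, dlsT, dlsU_add, map_add]
  ring

theorem dlsU_zero (ℓ : ℕ) [NeZero ℓ] : dlsU ℓ (0 : LaurentSeries R) = 0 := by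
  ext n
  rw [dlsU_coeff, HahnSeries.coeff_zero, HahnSeries.coeff_zero]

theorem dlsT_zero (ℓ : ℕ) [NeZero ℓ] : dlsT ℓ (0 : LaurentSeries R) = 0 := by
  rw [dlsT, dlsU_zero, map_zero, mul_zero, add_zero]

theorem dlsU_C_mul (ℓ : ℕ) [NeZero ℓ] (c : R) (f : LaurentSeries R) :
    dlsU ℓ (HahnSeries.C c * f) = HahnSeries.C c * dlsU ℓ f := by
  ext n
  rw [dlsU_coeff, HahnSeries.C_mul_eq_smul, HahnSeries.C_mul_eq_smul, HahnSeries.coeff_smul,
    HahnSeries.coeff_smul, dlsU_coeff]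

theorem dlsT_C_mul (ℓ : ℕ) [NeZero ℓ] (c : R) (f : LaurentSeries R) :
    dlsT ℓ (HahnSeries.C c * f) = HahnSeries.C c * dlsT ℓ f := by
  rw [dlsT, dlsT, dlsU_C_mul, map_mul, qExpand_C]
  ring

theorem dlsT_neg (ℓ : ℕ) [NeZero ℓ] (f : LaurentSeries R) : dlsT ℓ (-f) = -dlsT ℓ f := by
  have h := dlsT_add ℓ f (-f)
  rw [add_neg_cancel, dlsT_zero] at h
  exact eq_neg_of_add_eq_zero_right h.symm

theorem dlsT_sub (ℓ : ℕ) [NeZero ℓ] (f g : LaurentSeries R) :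
    dlsT ℓ (f - g) = dlsT ℓ f - dlsT ℓ g := by
  rw [sub_eq_add_neg, dlsT_add, dlsT_neg, sub_eq_add_neg]

/-- `coeffMap` commutes with `T_ℓ` -/
theorem dls_coeffMap_T {S : Type*} [CommRing S] (φ : R →+* S) (ℓ : ℕ) [NeZero ℓ]
    (f : LaurentSeries R) : coeffMap φ (dlsT ℓ f) = dlsT ℓ (coeffMap φ f) := by
  ext n
  rw [coeffMap_coeff, dlsT_coeff, dlsT_coeff, map_add, map_mul, map_natCast, coeffMap_coeff]
  split_ifs
  · rw [coeffMap_coeff]
  · rw [map_zero]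

/-- the sum of the twists by the powers of a primitive `ℓ`-th root of unity -/
theorem dls_sum_tw {R : Type*} [CommRing R] [IsDomain R] (ℓ : ℕ) [NeZero ℓ] {ζ : Rˣ}
    (hζ : IsPrimitiveRoot (ζ : R) ℓ) (f : LaurentSeries R) :
    ∑ b ∈ Finset.range ℓ, tkrTw (ζ ^ b) f = (ℓ : LaurentSeries R) * qExpand R ℓ (dlsU ℓ f) := by
  ext n
  rw [HahnSeries.coeff_sum, dls_coeff_natCast_mul]
  simp only [tkrTw_coeff]
  rw [← Finset.sum_mul]
  by_cases hn : (ℓ : ℤ) ∣ n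
  · obtain ⟨m, rfl⟩ := hn
    rw [qExpand_coeff_mul, dlsU_coeff]
    have h1 : ∀ b ∈ Finset.range ℓ, (((ζ ^ b) ^ ((ℓ : ℤ) * m) : Rˣ) : R) = 1 := by
      intro b _
      have : (ζ ^ b) ^ ((ℓ : ℤ) * m) = 1 := by
        rw [← zpow_natCast, ← zpow_mul, mul_comm, mul_assoc, zpow_mul, zpow_natCast]
        have : ζ ^ ℓ = 1 := by
          apply Units.ext
          rw [Units.val_pow_eq_pow_val, Units.val_one]
          exact hζ.pow_eq_one
        rw [this, one_zpow]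
      rw [this, Units.val_one]
    rw [Finset.sum_congr rfl h1, Finset.sum_const, Finset.card_range, nsmul_eq_mul, mul_one]
  · rw [qExpand_coeff_of_not_dvd ℓ _ hn, mul_zero]
    -- geometric sum
    have hξ : ζ ^ n ≠ 1 := by
      intro h1
      exact hn ((IsPrimitiveRoot.coe_units_iff.mp hζ).zpow_eq_one_iff_dvd n |>.mp h1)
    have hξ' : ((ζ ^ n : Rˣ) : R) - 1 ≠ 0 := by
      intro h0
      apply hξ
      apply Units.ext
      rw [Units.val_one]
      exact sub_eq_zero.mp h0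
    have hsum : ∑ b ∈ Finset.range ℓ, (((ζ ^ b) ^ n : Rˣ) : R) = 0 := by
      have h2 : ∀ b ∈ Finset.range ℓ, (((ζ ^ b) ^ n : Rˣ) : R) = ((ζ ^ n : Rˣ) : R) ^ b := by
        intro b _
        rw [← Units.val_pow_eq_pow_val]
        congr 1
        rw [← zpow_natCast, ← zpow_natCast, ← zpow_mul, ← zpow_mul, mul_comm]
      rw [Finset.sum_congr rfl h2]
      apply mul_left_cancel₀ hξ'
      rw [mul_zero, mul_comm, geom_sum_mul, ← Units.val_pow_eq_pow_val]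
      have : (ζ ^ n) ^ ℓ = 1 := by
        rw [← zpow_natCast, ← zpow_mul, mul_comm, zpow_mul, zpow_natCast]
        have : ζ ^ ℓ = 1 := by
          apply Units.ext
          rw [Units.val_pow_eq_pow_val, Units.val_one]
          exact hζ.pow_eq_one
        rw [this, one_zpow]
      rw [this, Units.val_one, sub_self]
    rw [hsum, zero_mul]

end Formal

/-! ### The logarithmic derivative of `T̃_ℓ y` -/

section LogTilde

variable {k : Type*} [Field k]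

/-- **`dlog (T̃_ℓ y) = (U_ℓ + ℓ V_ℓ) (dlog y)`** -/
theorem dls_log_tilde (ℓ : ℕ) [NeZero ℓ] (hℓ : (ℓ : k) ≠ 0) {ζ : kˣ}
    (hζ : IsPrimitiveRoot (ζ : k) ℓ) {y : LaurentSeries k} (hy : y ≠ 0) :
    dlsLog (tkrTilde ℓ hζ y) = dlsT ℓ (dlsLog y) := by
  have hℓ' : ((ℓ : ℕ) : LaurentSeries k) ≠ 0 := by
    rw [dls_natCast_eq_C, Ne, map_eq_zero]; exact hℓ
  have h1 : qExpand k (ℓ * ℓ) y ≠ 0 := fun h0 =>
    hy (qExpand_injective (R := k) (ℓ * ℓ) (by rw [h0, map_zero]))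
  have h2 : ∀ b ∈ Finset.range ℓ, tkrTw (ζ ^ b) y ≠ 0 := fun b _ h0 =>
    hy ((tkrTw (ζ ^ b)).injective (by rw [h0, map_zero]))
  have key := congrArg dlsLog (tkrTilde_spec ℓ hζ y)
  rw [dlsLog_qExpand, dlsLog_mul h1 (Finset.prod_ne_zero_iff.mpr h2), dlsLog_qExpand,
    dlsLog_prod _ _ h2] at key
  simp only [dlsLog_tw] at key
  rw [dls_sum_tw ℓ hζ, ← qExpand_qExpand, Nat.cast_mul, mul_assoc, ← mul_add] at key
  have key2 := mul_left_cancel₀ hℓ' key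
  have h3 : (ℓ : LaurentSeries k) * qExpand k ℓ (qExpand k ℓ (dlsLog y)) +
      qExpand k ℓ (dlsU ℓ (dlsLog y)) = qExpand k ℓ (dlsT ℓ (dlsLog y)) := by
    rw [dlsT, map_add, map_mul, map_natCast, add_comm]
  rw [h3] at key2
  exact qExpand_injective (R := k) ℓ key2

end LogTilde

/-! ### Reductions and the operators -/

section RedOps

variable {K : Type*} [Field K] {A : ValuationSubring K} {k : Type*} [Field k] {π : ↥A →+* k}

theorem DlsRedTo.qExpand {x : LaurentSeries K} {y : LaurentSeries k} (h : DlsRedTo A π x y)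
    (d : ℕ) [NeZero d] : DlsRedTo A π (qExpand K d x) (qExpand k d y) := by
  obtain ⟨c, a, b, hc, ha, hb, e, e1⟩ := h
  have hi : ∀ s : LaurentSeries ↥A, tbInc A (ModularCurve.qExpand ↥A d s)
      = ModularCurve.qExpand K d (tbInc A s) := fun s => coeffMap_qExpand _ d s
  have hr : ∀ s : LaurentSeries ↥A, tbRed π (ModularCurve.qExpand ↥A d s)
      = ModularCurve.qExpand k d (tbRed π s) := fun s => coeffMap_qExpand _ d s
  refine ⟨c, ModularCurve.qExpand ↥A d a, ModularCurve.qExpand ↥A d b, hc, ?_, ?_, ?_, ?_⟩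
  · rw [hr]
    exact fun h0 => ha (qExpand_injective (R := k) d (by rw [h0, map_zero]))
  · rw [hr]
    exact fun h0 => hb (qExpand_injective (R := k) d (by rw [h0, map_zero]))
  · rw [hi, hi, ← map_mul, e, map_mul, qExpand_C]
  · rw [hr, hr, ← map_mul, e1]

/-- twisting by a unit of `A` -/
theorem DlsRedTo.tw {x : LaurentSeries K} {y : LaurentSeries k} (h : DlsRedTo A π x y)
    (ζ : (↥A)ˣ) :
    DlsRedTo A π (tkrTw (Units.map (A.subtype : ↥A →* K) ζ) x)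
      (tkrTw (Units.map (π : ↥A →* k) ζ) y) := by
  obtain ⟨c, a, b, hc, ha, hb, e, e1⟩ := h
  have hi : ∀ s : LaurentSeries ↥A, tbInc A (tkrTw ζ s)
      = tkrTw (Units.map (A.subtype : ↥A →* K) ζ) (tbInc A s) := fun s => coeffMap_tkrTw _ ζ s
  have hr : ∀ s : LaurentSeries ↥A, tbRed π (tkrTw ζ s)
      = tkrTw (Units.map (π : ↥A →* k) ζ) (tbRed π s) := fun s => coeffMap_tkrTw _ ζ s
  refine ⟨c, tkrTw ζ a, tkrTw ζ b, hc, ?_, ?_, ?_, ?_⟩
  · rw [hr]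
    exact fun h0 => ha ((tkrTw _).injective (by rw [h0, map_zero]))
  · rw [hr]
    exact fun h0 => hb ((tkrTw _).injective (by rw [h0, map_zero]))
  · rw [hi, hi, ← map_mul, e, map_mul, tkrTw_C]
  · rw [hr, hr, ← map_mul, e1]

/-- `T̃` commutes with every base change which keeps the root of unity primitive -/
theorem dls_coeffMap_tilde {R R' : Type*} [CommRing R] [IsDomain R] [CommRing R'] [IsDomain R']
    (f : R →+* R') (ℓ : ℕ) [NeZero ℓ] {ζ : Rˣ} (hζ : IsPrimitiveRoot (ζ : R) ℓ)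
    (hζ' : IsPrimitiveRoot ((Units.map (f : R →* R') ζ : R'ˣ) : R') ℓ) (a : LaurentSeries R) :
    coeffMap f (tkrTilde ℓ hζ a) = tkrTilde ℓ hζ' (coeffMap f a) := by
  symm
  apply tkrTilde_eq_of_spec
  rw [← coeffMap_qExpand, tkrTilde_spec, map_mul, map_prod, coeffMap_qExpand]
  congr 1
  refine Finset.prod_congr rfl (fun b _ => ?_)
  rw [coeffMap_tkrTw, map_pow]

theorem dls_tilde_ne_zero (ℓ : ℕ) [NeZero ℓ] {ζ : kˣ} (hζ : IsPrimitiveRoot (ζ : k) ℓ)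
    {y : LaurentSeries k} (hy : y ≠ 0) : tkrTilde ℓ hζ y ≠ 0 := by
  intro h0
  have h1 := tkrTilde_mul ℓ hζ y y⁻¹
  rw [mul_inv_cancel₀ hy, tkrTilde_one, h0, zero_mul] at h1
  exact one_ne_zero h1

/-- **reductions up to constants are compatible with `T̃_ℓ`** -/
theorem DlsRedTo.tilde {x : LaurentSeries K} {y : LaurentSeries k} (h : DlsRedTo A π x y)
    (ℓ : ℕ) [NeZero ℓ] (ζ : (↥A)ˣ)
    (hζK : IsPrimitiveRoot ((Units.map (A.subtype : ↥A →* K) ζ : Kˣ) : K) ℓ)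
    (hζk : IsPrimitiveRoot ((Units.map (π : ↥A →* k) ζ : kˣ) : k) ℓ) :
    DlsRedTo A π (tkrTilde ℓ hζK x) (tkrTilde ℓ hζk y) := by
  obtain ⟨c, a, b, hc, ha, hb, e, e1⟩ := h
  have hζA : IsPrimitiveRoot ((ζ : (↥A)ˣ) : ↥A) ℓ :=
    IsPrimitiveRoot.of_map_of_injective (f := A.subtype) hζK Subtype.val_injective
  have hi : ∀ s : LaurentSeries ↥A, tbInc A (tkrTilde ℓ hζA s) = tkrTilde ℓ hζK (tbInc A s) :=
    fun s => dls_coeffMap_tilde A.subtype ℓ hζA hζK s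
  have hr : ∀ s : LaurentSeries ↥A, tbRed π (tkrTilde ℓ hζA s) = tkrTilde ℓ hζk (tbRed π s) :=
    fun s => dls_coeffMap_tilde π ℓ hζA hζk s
  refine ⟨c ^ (ℓ + 1), tkrTilde ℓ hζA a, tkrTilde ℓ hζA b, pow_ne_zero _ hc, ?_, ?_, ?_, ?_⟩
  · rw [hr]; exact dls_tilde_ne_zero ℓ hζk ha
  · rw [hr]; exact dls_tilde_ne_zero ℓ hζk hb
  · rw [hi, hi, ← tkrTilde_mul, e, tkrTilde_mul, tkrTilde_C]
  · rw [hr, hr, ← tkrTilde_mul, e1]

end RedOps

end

end Fermat.Agent.Delta
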