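/-
DELTA / I6 (helper3), package (K), file 3: **the reduced logarithmic derivative of a modular
function**, `dlsPhi 𝔓 z = ρ(θ z / z)`, over `(ℚ̄, A = 𝔓.P)`, at EVERY level `N` (also `p ∣ N`).

* `dls_nf`        : every non-zero modular function has a reduction up to a constant (`DlsRedTo`);
* `dls_gauss`     : `θ z / z` is Gauss-integral;
* `dls_phi_mul`, `dls_phi_pow`, `dls_phi_const`: additivity, `p`-th powers and constants are killed;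
* `dls_phi_hecke` : `φ(T_ℓ^fun z) = (U_ℓ + ℓ V_ℓ) φ(z)` for `ℓ ∤ N`, `ℓ ≠ p`.
-/
import Mathlib
import Fermat.Agent.Lib.Delta.Slope.Tilde
import Fermat.Agent.Lib.T1.Inst.LevelUp
import Fermat.Agent.Lib.T1.Inst.FromTa

set_option autoImplicit false
set_option linter.unusedSectionVars false
set_option linter.unusedVariables false
set_option linter.style.haveILetI false
set_option synthInstance.maxHeartbeats 400000

namespace Fermat.Agent.Delta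

open ModularCurve HahnSeries Fermat.Agent.T1 Fermat.Agent.S23Lib Fermat.Agent.Igusa
  Fermat.Agent.TW Fermat.Agent.S05Lib

local notation "Qb" => AlgebraicClosure ℚ

noncomputable section

/-! ### Roots of unity -/

/-- the reduction of a primitive `ℓ`-th root of unity (`ℓ` prime, invertible in the residue field)
is primitive -/
theorem dls_primitive_red {A : Type*} [CommRing A] [IsDomain A] {k : Type*} [Field k]
    (π : A →+* k) {ℓ : ℕ} (hℓ : ℓ.Prime) (hk : (ℓ : k) ≠ 0) {ζ : A} (hζ : IsPrimitiveRoot ζ ℓ) :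
    IsPrimitiveRoot (π ζ) ℓ := by
  have h1 : (π ζ) ^ ℓ = 1 := by rw [← map_pow, hζ.pow_eq_one, map_one]
  have hne : π ζ ≠ 1 := by
    intro h0
    obtain ⟨n, rfl⟩ : ∃ n, ℓ = n + 1 := ⟨ℓ - 1, (Nat.sub_add_cancel hℓ.one_le).symm⟩
    have h2 := congrArg π hζ.prod_one_sub_pow_eq_order
    rw [map_prod] at h2
    have hn : 0 < n := by
      rcases Nat.eq_zero_or_pos n with rfl | hn
      · exact absurd hℓ Nat.not_prime_one
      · exact hn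
    rw [Finset.prod_eq_zero (Finset.mem_range.mpr hn) (by
      rw [zero_add, pow_one, map_sub, map_one, h0, sub_self])] at h2
    apply hk
    rw [h2]
    push_cast
    rw [map_add, map_natCast, map_one]
  have hord := orderOf_dvd_of_pow_eq_one h1
  rcases (Nat.dvd_prime hℓ).mp hord with h3 | h3
  · exact absurd (orderOf_eq_one_iff.mp h3) hne
  · rw [← h3]
    exact IsPrimitiveRoot.orderOf _

variable (𝔓 : FFPlace)

/-- a primitive `ℓ`-th root of unity in `A = 𝔓.P` whose reduction is primitive (`ℓ ≠ p`) -/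
theorem dls_exists_zeta {ℓ : ℕ} (hℓ : ℓ.Prime) (hℓp : ℓ ≠ 𝔓.p) :
    ∃ ζ : (↥𝔓.P)ˣ, IsPrimitiveRoot ((Units.map (𝔓.P.subtype : ↥𝔓.P →* Qb) ζ : Qbˣ) : Qb) ℓ ∧
      IsPrimitiveRoot ((Units.map ((IsLocalRing.residue ↥𝔓.P : ↥𝔓.P →+*
        IsLocalRing.ResidueField ↥𝔓.P) : ↥𝔓.P →* IsLocalRing.ResidueField ↥𝔓.P) ζ :
        (IsLocalRing.ResidueField ↥𝔓.P)ˣ) : IsLocalRing.ResidueField ↥𝔓.P) ℓ := by
  haveI : NeZero ℓ := ⟨hℓ.ne_zero⟩
  obtain ⟨ζ, hζ, -⟩ := tkr_exists_zeta ℓ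
  have hpow : ((ζ : Qbˣ) : Qb) ^ ℓ = 1 := hζ.pow_eq_one
  have hmem : ∀ x : Qb, x ^ ℓ = 1 → x ∈ 𝔓.P := by
    intro x hx
    rcases 𝔓.P.mem_or_inv_mem x with h | h
    · exact h
    · have : x = (x⁻¹) ^ (ℓ - 1) := by
        have hx0 : x ≠ 0 := by
          rintro rfl
          rw [zero_pow hℓ.ne_zero] at hx
          exact zero_ne_one hx
        have h1 : x ^ ℓ = x ^ (ℓ - 1) * x := by
          rw [← pow_succ, Nat.sub_add_cancel hℓ.one_le]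
        rw [inv_pow]
        apply eq_inv_of_mul_eq_one_right
        rw [← h1, hx]
      rw [this]
      exact pow_mem h _
  have hm1 : ((ζ : Qbˣ) : Qb) ∈ 𝔓.P := hmem _ hpow
  have hm2 : ((ζ⁻¹ : Qbˣ) : Qb) ∈ 𝔓.P := by
    apply hmem
    rw [Units.val_inv_eq_inv_val, inv_pow, hpow, inv_one]
  set ζA : (↥𝔓.P)ˣ := ⟨⟨(ζ : Qb), hm1⟩, ⟨((ζ⁻¹ : Qbˣ) : Qb), hm2⟩,
    Subtype.ext (by show (ζ : Qb) * ((ζ⁻¹ : Qbˣ) : Qb) = 1; rw [← Units.val_mul, mul_inv_cancel,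
      Units.val_one]),
    Subtype.ext (by show ((ζ⁻¹ : Qbˣ) : Qb) * (ζ : Qb) = 1; rw [← Units.val_mul, inv_mul_cancel,
      Units.val_one])⟩ with hζA
  have hζA' : IsPrimitiveRoot ((ζA : (↥𝔓.P)ˣ) : ↥𝔓.P) ℓ :=
    IsPrimitiveRoot.of_map_of_injective (f := 𝔓.P.subtype) (by exact hζ) Subtype.val_injective
  refine ⟨ζA, hζ, ?_⟩
  haveI : CharP (IsLocalRing.ResidueField ↥𝔓.P) 𝔓.p := tkr_charP_residue 𝔓.hp 𝔓.hP
  have hk : ((ℓ : ℕ) : IsLocalRing.ResidueField ↥𝔓.P) ≠ 0 := by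
    intro h0
    have := (CharP.cast_eq_zero_iff (IsLocalRing.ResidueField ↥𝔓.P) 𝔓.p ℓ).mp h0
    exact hℓp ((Nat.prime_dvd_prime_iff_eq 𝔓.hp hℓ).mp this).symm
  exact dls_primitive_red (IsLocalRing.residue ↥𝔓.P) hℓ hk hζA'

/-! ### The Gauss normal form at every level -/

/-- **every non-zero modular function (of any level) has a reduction up to a constant** -/
theorem dls_nf (N : ℕ) [NeZero N] {f : LaurentSeries Qb} (hf : f ∈ modularFunctionFieldBar N)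
    (hf0 : f ≠ 0) :
    ∃ y : LaurentSeries (IsLocalRing.ResidueField ↥𝔓.P),
      DlsRedTo 𝔓.P (IsLocalRing.residue ↥𝔓.P) f y := by
  obtain ⟨H, hH, -, hT⟩ := tbd_exists_level (modularFunctionFieldFull N) 𝔓
    ({()} : Finset Unit) (fun _ => f) (fun _ _ => hf) ∅
  obtain ⟨fH, hfH, hfHf⟩ := hT () (Finset.mem_singleton_self _)
  haveI := hH
  haveI : IsDiscreteValuationRing ↥(tbFixO 𝔓 H) := tbFixO_dvr 𝔓 H
  have hπ := tbFixRes_surjective 𝔓 H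
  have hfH0 : fH ≠ 0 := by
    rintro rfl
    rw [map_zero] at hfHf
    exact hf0 hfHf.symm
  obtain ⟨c, a, b, hc, -, -, ha0, hb0, hrel⟩ :=
    tbf_nf (tbFixO 𝔓 H) (tbFixRes 𝔓 H) hπ N fH hfH hfH0
  refine ⟨tbRed (IsLocalRing.residue ↥𝔓.P) (coeffMap (tbFixIncl 𝔓 H) a) /
    tbRed (IsLocalRing.residue ↥𝔓.P) (coeffMap (tbFixIncl 𝔓 H) b),
    (c : Qb), coeffMap (tbFixIncl 𝔓 H) a, coeffMap (tbFixIncl 𝔓 H) b,
    fun h0 => hc (Subtype.ext h0), ?_, ?_, ?_, ?_⟩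
  · rwa [tbPhi_red]
  · rwa [tbPhi_red]
  · rw [tbPhi_inc, tbPhi_inc, ← hfHf, ← map_mul, hrel, map_mul, tbPhi_C]
  · rw [div_mul_cancel₀]
    rwa [tbPhi_red]

/-! ### The reduced logarithmic derivative -/

/-- **the reduced logarithmic derivative** `ρ(θ z / z)`, `θ = q d/dq` -/
def dlsPhi (z : LaurentSeries Qb) : LaurentSeries (IsLocalRing.ResidueField ↥𝔓.P) :=
  tbRhoFun 𝔓.P (IsLocalRing.residue ↥𝔓.P) (qTheta z / z)

variable {𝔓}

theorem DlsRedTo.phi_eq {z : LaurentSeries Qb} {y : LaurentSeries (IsLocalRing.ResidueField ↥𝔓.P)}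
    (h : DlsRedTo 𝔓.P (IsLocalRing.residue ↥𝔓.P) z y) : dlsPhi 𝔓 z = dlsLog y :=
  h.rho_log.2

variable (𝔓)

theorem dlsPhi_zero : dlsPhi 𝔓 0 = 0 := by
  rw [dlsPhi, div_zero, tbRhoFun_zero]

/-- (K1) `θ z / z` is Gauss-integral for every modular function -/
theorem dls_gauss (N : ℕ) [NeZero N] {z : LaurentSeries Qb} (hz : z ∈ modularFunctionFieldBar N) :
    TbGauss 𝔓.P (IsLocalRing.residue ↥𝔓.P) (qTheta z / z) := by
  rcases eq_or_ne z 0 with rfl | hz0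
  · rw [div_zero]
    exact (tbGaussSubring 𝔓.P (IsLocalRing.residue ↥𝔓.P)).zero_mem
  · obtain ⟨y, hy⟩ := dls_nf 𝔓 N hz hz0
    exact hy.gauss_log

/-- (K1) additivity -/
theorem dls_phi_mul (N : ℕ) [NeZero N] {z z' : LaurentSeries Qb}
    (hz : z ∈ modularFunctionFieldBar N) (hz' : z' ∈ modularFunctionFieldBar N)
    (hz0 : z ≠ 0) (hz0' : z' ≠ 0) : dlsPhi 𝔓 (z * z') = dlsPhi 𝔓 z + dlsPhi 𝔓 z' := by
  obtain ⟨y, hy⟩ := dls_nf 𝔓 N hz hz0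
  obtain ⟨y', hy'⟩ := dls_nf 𝔓 N hz' hz0'
  rw [(hy.mul hy').phi_eq, hy.phi_eq, hy'.phi_eq, dlsLog_mul hy.ne_zero_right hy'.ne_zero_right]

theorem dls_phi_inv (N : ℕ) [NeZero N] {z : LaurentSeries Qb}
    (hz : z ∈ modularFunctionFieldBar N) : dlsPhi 𝔓 z⁻¹ = -dlsPhi 𝔓 z := by
  rcases eq_or_ne z 0 with rfl | hz0
  · rw [inv_zero, dlsPhi_zero, neg_zero]
  · obtain ⟨y, hy⟩ := dls_nf 𝔓 N hz hz0
    rw [hy.inv.phi_eq, hy.phi_eq, dlsLog_inv]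

/-- constants are killed -/
theorem dls_phi_C_mul {c : Qb} (hc : c ≠ 0) (z : LaurentSeries Qb) :
    dlsPhi 𝔓 (HahnSeries.C c * z) = dlsPhi 𝔓 z := by
  have h := dlsLog_C_mul hc z
  rw [dlsLog, dlsLog] at h
  rw [dlsPhi, dlsPhi, h]

/-- (K1) `p`-th powers are killed -/
theorem dls_phi_pow (N : ℕ) [NeZero N] {u : LaurentSeries Qb}
    (hu : u ∈ modularFunctionFieldBar N) : dlsPhi 𝔓 (u ^ 𝔓.p) = 0 := by
  rcases eq_or_ne u 0 with rfl | hu0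
  · rw [zero_pow 𝔓.hp.ne_zero, dlsPhi_zero]
  · obtain ⟨y, hy⟩ := dls_nf 𝔓 N hu hu0
    haveI : CharP (IsLocalRing.ResidueField ↥𝔓.P) 𝔓.p := tkr_charP_residue 𝔓.hp 𝔓.hP
    haveI : CharP (LaurentSeries (IsLocalRing.ResidueField ↥𝔓.P)) 𝔓.p :=
      charP_of_injective_algebraMap
        (algebraMap (IsLocalRing.ResidueField ↥𝔓.P) (LaurentSeries (IsLocalRing.ResidueField ↥𝔓.P))).injective
        𝔓.p
    rw [(hy.pow 𝔓.p).phi_eq, dlsLog_pow, nsmul_eq_mul, CharP.cast_eq_zero, zero_mul]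

/-- (K2) **Hecke**: `φ(T_ℓ^fun z) = (U_ℓ + ℓ V_ℓ) φ(z)` -/
theorem dls_phi_hecke (N : ℕ) [NeZero N] {ℓ : ℕ} [NeZero ℓ] (hℓ : ℓ.Prime) (hℓN : ¬ ℓ ∣ N)
    (hℓp : ℓ ≠ 𝔓.p) (z : ↥(modularFunctionFieldBar N)) :
    dlsPhi 𝔓 ((tkrHecke N ℓ z : ↥(modularFunctionFieldBar N)) : LaurentSeries Qb) =
      dlsT ℓ (dlsPhi 𝔓 (z : LaurentSeries Qb)) := by
  rcases eq_or_ne z 0 with rfl | hz0
  · rw [map_zero, ZeroMemClass.coe_zero, dlsPhi_zero, dlsT_zero]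
  obtain ⟨ζ, hζK, hζk⟩ := dls_exists_zeta 𝔓 hℓ hℓp
  have hz0' : (z : LaurentSeries Qb) ≠ 0 := fun h0 => hz0 (Subtype.ext h0)
  obtain ⟨y, hy⟩ := dls_nf 𝔓 N z.2 hz0'
  have h1 := hy.tilde ℓ ζ hζK hζk
  rw [tkrTilde_eq_tkrHecke hℓ hℓN hζK z] at h1
  haveI : CharP (IsLocalRing.ResidueField ↥𝔓.P) 𝔓.p := tkr_charP_residue 𝔓.hp 𝔓.hP
  have hk : ((ℓ : ℕ) : IsLocalRing.ResidueField ↥𝔓.P) ≠ 0 := by
    intro h0
    have := (CharP.cast_eq_zero_iff (IsLocalRing.ResidueField ↥𝔓.P) 𝔓.p ℓ).mp h0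
    exact hℓp ((Nat.prime_dvd_prime_iff_eq 𝔓.hp hℓ).mp this).symm
  rw [h1.phi_eq, hy.phi_eq, dls_log_tilde ℓ hk hζk hy.ne_zero_right]

end

end Fermat.Agent.Delta
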