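/-
DELTA / I6 (helper3), package (K), file 6: **Gauss units and the Gauss valuation of constants**
(generic `(K, A, π)`; `π` kills the non-units of `A`).
-/
import Mathlib
import Fermat.Agent.Lib.Delta.Slope.Theta

set_option autoImplicit false
set_option linter.unusedSectionVars false
set_option linter.unusedVariables false

namespace Fermat.Agent.Delta

open ModularCurve HahnSeries Fermat.Agent.T1

noncomputable section

variable {K : Type*} [Field K] (A : ValuationSubring K) {k : Type*} [Field k] (π : ↥A →+* k)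

/-- Gauss units: Gauss-integral with non-zero residue -/
def DlsUnit (x : LaurentSeries K) : Prop := TbGauss A π x ∧ tbRhoFun A π x ≠ 0

variable {A π}

theorem DlsUnit.ne_zero {x : LaurentSeries K} (h : DlsUnit A π x) : x ≠ 0 := by
  rintro rfl
  exact h.2 (tbRhoFun_zero A π)

theorem dlsUnit_one : DlsUnit A π (1 : LaurentSeries K) :=
  ⟨(tbGaussSubring A π).one_mem, by rw [tbRhoFun_one]; exact one_ne_zero⟩

theorem DlsUnit.mul {x y : LaurentSeries K} (hx : DlsUnit A π x) (hy : DlsUnit A π y) :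
    DlsUnit A π (x * y) :=
  ⟨(tbGaussSubring A π).mul_mem hx.1 hy.1, by
    rw [tbRhoFun_mul A π hx.1 hy.1]; exact mul_ne_zero hx.2 hy.2⟩

theorem DlsUnit.inv {x : LaurentSeries K} (hx : DlsUnit A π x) : DlsUnit A π x⁻¹ :=
  ⟨tbGauss_inv A π hx.1 hx.2, by rw [tbRhoFun_inv A π hx.1 hx.2]; exact inv_ne_zero hx.2⟩

theorem DlsUnit.pow {x : LaurentSeries K} (hx : DlsUnit A π x) (n : ℕ) : DlsUnit A π (x ^ n) := by
  induction n with
  | zero => rw [pow_zero]; exact dlsUnit_one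
  | succ n ih => rw [pow_succ]; exact ih.mul hx

theorem dls_rho_pow {x : LaurentSeries K} (hx : TbGauss A π x) (n : ℕ) :
    TbGauss A π (x ^ n) ∧ tbRhoFun A π (x ^ n) = tbRhoFun A π x ^ n := by
  induction n with
  | zero => rw [pow_zero, pow_zero]; exact ⟨(tbGaussSubring A π).one_mem, tbRhoFun_one A π⟩
  | succ n ih =>
    rw [pow_succ, pow_succ]
    exact ⟨(tbGaussSubring A π).mul_mem ih.1 hx, by rw [tbRhoFun_mul A π ih.1 hx, ih.2]⟩

theorem dls_rho_sub {x y : LaurentSeries K} (hx : TbGauss A π x) (hy : TbGauss A π y) :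
    TbGauss A π (x - y) ∧ tbRhoFun A π (x - y) = tbRhoFun A π x - tbRhoFun A π y := by
  have h := (tbRho A π).map_sub ⟨x, hx⟩ ⟨y, hy⟩
  exact ⟨(tbGaussSubring A π).sub_mem hx hy, h⟩

/-- multiplication by a constant of `A` -/
theorem dls_gauss_C_mul {a : K} (ha : a ∈ A) {x : LaurentSeries K} (hx : TbGauss A π x) :
    TbGauss A π (HahnSeries.C a * x) ∧
      tbRhoFun A π (HahnSeries.C a * x) = HahnSeries.C (π ⟨a, ha⟩) * tbRhoFun A π x := by
  have h1 : TbGauss A π (HahnSeries.C a : LaurentSeries K) := tbGauss_C A π ⟨a, ha⟩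
  exact ⟨(tbGaussSubring A π).mul_mem h1 hx, by
    rw [tbRhoFun_mul A π h1 hx]
    congr 1
    exact tbRhoFun_C A π ⟨a, ha⟩⟩

theorem dls_C_mul_C_inv {c : K} (hc : c ≠ 0) (x : LaurentSeries K) :
    HahnSeries.C c * (HahnSeries.C c⁻¹ * x) = x := by
  rw [← mul_assoc, ← map_mul, mul_inv_cancel₀ hc, map_one, one_mul]

theorem dls_C_inv_mul_C {c : K} (hc : c ≠ 0) (x : LaurentSeries K) :
    HahnSeries.C c⁻¹ * (HahnSeries.C c * x) = x := by
  rw [← mul_assoc, ← map_mul, inv_mul_cancel₀ hc, map_one, one_mul]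

/-- a function with a reduction up to a constant can be scaled to a Gauss unit -/
theorem DlsRedTo.exists_unit {x : LaurentSeries K} {y : LaurentSeries k} (h : DlsRedTo A π x y) :
    ∃ c : K, c ≠ 0 ∧ TbGauss A π (HahnSeries.C c * x) ∧ tbRhoFun A π (HahnSeries.C c * x) = y := by
  have hy0 := h.ne_zero_right
  obtain ⟨c, a, b, hc, ha, hb, e, e1⟩ := h
  have e2 : HahnSeries.C c⁻¹ * x * tbInc A b = tbInc A a := by
    rw [mul_assoc, e, dls_C_inv_mul_C hc]
  refine ⟨c⁻¹, inv_ne_zero hc, ⟨a, b, hb, e2⟩, ?_⟩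
  rw [tbRhoFun_eq A π hb e2, ← e1, mul_div_cancel_right₀ _ hb]

variable (hπ : ∀ a : ↥A, ((a : ↥A) : K)⁻¹ ∉ A → π a = 0)

include hπ in
/-- if `x` is Gauss-integral and `c x` is a Gauss unit then `c⁻¹ ∈ A` -/
theorem dls_const_inv_mem {x : LaurentSeries K} (hx : TbGauss A π x) {c : K} (hc : c ≠ 0)
    (hu : DlsUnit A π (HahnSeries.C c * x)) : c⁻¹ ∈ A := by
  by_contra hci
  have hcA : c ∈ A := (A.mem_or_inv_mem c).resolve_right hci
  have h0 : π ⟨c, hcA⟩ = 0 := hπ ⟨c, hcA⟩ hci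
  apply hu.2
  rw [(dls_gauss_C_mul hcA hx).2, h0, map_zero, zero_mul]

include hπ in
/-- if `x` is Gauss-integral with residue `0` and `c x` is a Gauss unit then `c⁻¹` is a non-unit
of `A` -/
theorem dls_const_inv_mem_max {x : LaurentSeries K} (hx : TbGauss A π x)
    (hx0 : tbRhoFun A π x = 0) {c : K} (hc : c ≠ 0)
    (hu : DlsUnit A π (HahnSeries.C c * x)) : ∃ h : c⁻¹ ∈ A, π ⟨c⁻¹, h⟩ = 0 := by
  have h1 := dls_const_inv_mem hπ hx hc hu
  refine ⟨h1, hπ ⟨c⁻¹, h1⟩ ?_⟩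
  show (c⁻¹)⁻¹ ∉ A
  rw [inv_inv]
  intro hcA
  apply hu.2
  rw [(dls_gauss_C_mul hcA hx).2, hx0, mul_zero]

end

end Fermat.Agent.Delta
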