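/-
DELTA / I6 (helper3), package (K), file 7: **the two Gauss valuations of `F = ℚ̄(X₀(N' p))`**
(`v_∞`: Gauss valuation of the `q`-expansion; `v_0 = v_∞ ∘ w_p`), over `(ℚ̄, A = 𝔓.P)`.

* `dls_res_surjective` : `res : 𝒪 → E × E` is surjective (`E = tbBarF 𝔓 N'`);
* `dls_rho_mem`        : the residue of a function which is Gauss at `v_∞` ONLY lies in `E`;
* `dls_exists_adjust`  : functions with `v_∞ = 0` and prescribed `v_0`;
* `dls_exists_two_unit`: every non-zero function is, up to a constant and a `p`-th power, a unit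
  for both valuations.
-/
import Mathlib
import Fermat.Agent.Lib.Delta.Slope.Unit
import Fermat.Agent.Lib.Delta.Slope.Phi
import Fermat.Agent.Lib.S33.Qb.Base
import Fermat.Agent.Lib.S33.F12.Sub
import Fermat.Agent.Lib.T2.Inst.ChartH

set_option autoImplicit false
set_option linter.unusedSectionVars false
set_option linter.unusedVariables false
set_option linter.style.haveILetI false
set_option synthInstance.maxHeartbeats 400000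

namespace Fermat.Agent.Delta

open ModularCurve HahnSeries Fermat.Agent.T1 Fermat.Agent.T2 Fermat.Agent.TW Fermat.Agent.S24Lib
  Fermat.Agent.S33Q Fermat.Agent.S33 Fermat.Agent.S05Lib

local notation "Qb" => AlgebraicClosure ℚ

noncomputable section

attribute [local instance] t2i_dvr t2i_isAlgClosed t2i_charP t2i_fact
attribute [local instance] s33g_neZero

variable (𝔓 : FFPlace) (N' : ℕ) [NeZero N'] (h : ¬ 𝔓.p ∣ N')

/-- non-units of `A` reduce to `0` -/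
theorem dls_hπ (a : ↥𝔓.P) (ha : ((a : ↥𝔓.P) : Qb)⁻¹ ∉ 𝔓.P) : IsLocalRing.residue ↥𝔓.P a = 0 :=
  tbq_residue_eq_zero 𝔓.P a.2 ha

/-- **`res : 𝒪 → E × E` is surjective** -/
theorem dls_res_surjective : Function.Surjective (s33qRes 𝔓 N' h) := by
  intro t
  obtain ⟨u, hu⟩ := t2i_res_surjective (tbFixO 𝔓 ⊤) (tbFixRes 𝔓 ⊤) (tbFixRes_surjective 𝔓 ⊤)
    (t2i_natCast_ne_zero 𝔓 h) (t2iALFix 𝔓 ⊤ N' h) (t2iFrobFix 𝔓 N') t
  have hu' : (t2iBase2Fix 𝔓 ⊤ N' h).res u = t := hu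
  refine ⟨⟨tbPhiF 𝔓 (N' * 𝔓.p) ⊤ u.1, s33q_phi_mem 𝔓 N' h ⊤ u.2⟩, ?_⟩
  rw [s33qRes_phi 𝔓 N' h ⊤ u.2]
  exact hu'

/-- the coercion to Laurent series commutes with powers -/
theorem dls_coe_pow (N : ℕ) [NeZero N] (f : ↥(modularFunctionFieldBar N)) (n : ℕ) :
    ((f ^ n : ↥(modularFunctionFieldBar N)) : LaurentSeries Qb) = (f : LaurentSeries Qb) ^ n := rfl

/-- every non-zero function can be scaled to a Gauss unit at `v_∞` -/
theorem dls_exists_unit (N : ℕ) [NeZero N] (f : ↥(modularFunctionFieldBar N)) (hf : f ≠ 0) :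
    ∃ c : Qb, c ≠ 0 ∧ DlsUnit 𝔓.P (IsLocalRing.residue ↥𝔓.P)
      (HahnSeries.C c * (f : LaurentSeries Qb)) := by
  have hf0 : (f : LaurentSeries Qb) ≠ 0 := fun h0 => hf (Subtype.ext h0)
  obtain ⟨y, hy⟩ := dls_nf 𝔓 N f.2 hf0
  obtain ⟨c, hc, hg, hρ⟩ := hy.exists_unit
  exact ⟨c, hc, hg, by rw [hρ]; exact hy.ne_zero_right⟩

/-- powers of a function `e ≡ (1, 0)` are divisible, at `v_0`, by every non-zero constant of `A` -/
theorem dls_e_pow (e : ↥(modularFunctionFieldBar (N' * 𝔓.p))) (he : e ∈ s33qOv 𝔓 N' h)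
    (hres : s33qRes 𝔓 N' h ⟨e, he⟩ = (1, 0)) (r : Qb) (hr : r ∈ 𝔓.P) (hr0 : r ≠ 0) :
    ∃ (n : ℕ) (g : ↥(modularFunctionFieldBar (N' * 𝔓.p))), e ^ n = r • g ∧
      TbGauss 𝔓.P (IsLocalRing.residue ↥𝔓.P)
        ((t2w Qb N' 𝔓.p h g : ↥(modularFunctionFieldBar (N' * 𝔓.p))) : LaurentSeries Qb) ∧
      tbRhoFun 𝔓.P (IsLocalRing.residue ↥𝔓.P)
        ((t2w Qb N' 𝔓.p h g : ↥(modularFunctionFieldBar (N' * 𝔓.p))) : LaurentSeries Qb) = 0 := by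
  set we : ↥(modularFunctionFieldBar (N' * 𝔓.p)) := t2w Qb N' 𝔓.p h e with hwe
  have hG2 : TbGauss 𝔓.P (IsLocalRing.residue ↥𝔓.P) (we : LaurentSeries Qb) :=
    ((mem_s33qOv 𝔓 N' h e).mp he).2
  have hρ2 : tbRhoFun 𝔓.P (IsLocalRing.residue ↥𝔓.P) (we : LaurentSeries Qb) = 0 := by
    have h1 := coe_s33qRes_snd 𝔓 N' h ⟨e, he⟩
    rw [hres] at h1
    exact h1.symm
  have he0 : e ≠ 0 := by
    rintro rfl
    have h1 : s33qRes 𝔓 N' h ⟨0, he⟩ = 0 := map_zero _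
    rw [hres] at h1
    exact one_ne_zero (congrArg Prod.fst h1)
  have hwe0 : we ≠ 0 := (map_ne_zero _).mpr he0
  obtain ⟨c, hc, hu⟩ := dls_exists_unit 𝔓 (N' * 𝔓.p) we hwe0
  obtain ⟨hcA, hc0⟩ := dls_const_inv_mem_max (dls_hπ 𝔓) hG2 hρ2 hc hu
  have hamax : (⟨c⁻¹, hcA⟩ : ↥𝔓.P) ∈ IsLocalRing.maximalIdeal ↥𝔓.P :=
    (IsLocalRing.residue_eq_zero_iff _).mp hc0
  obtain ⟨n, d, hd⟩ := tb_arch 𝔓 ⟨c⁻¹, hcA⟩ hamax ⟨r, hr⟩ (fun h0 => hr0 (congrArg Subtype.val h0))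
  have hd' : (c⁻¹) ^ n = r * (d : Qb) := by
    have := congrArg (Subtype.val : ↥𝔓.P → Qb) hd
    simpa using this
  refine ⟨n + 1, r⁻¹ • e ^ (n + 1), by rw [smul_smul, mul_inv_cancel₀ hr0, one_smul], ?_⟩
  have h1 : ((t2w Qb N' 𝔓.p h (r⁻¹ • e ^ (n + 1)) : ↥(modularFunctionFieldBar (N' * 𝔓.p))) :
      LaurentSeries Qb) = HahnSeries.C ((d : Qb) * c⁻¹) *
        (HahnSeries.C c * (we : LaurentSeries Qb)) ^ (n + 1) := by
    rw [s33q_t2w_smul, map_pow, tbq_coe_smul, dls_coe_pow, mul_pow, ← map_pow, ← mul_assoc,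
      ← map_mul]
    congr 2
    have hcn : c ^ (n + 1) ≠ 0 := pow_ne_zero _ hc
    have h5 : (c⁻¹) ^ (n + 1) = r * (d : Qb) * c⁻¹ := by rw [pow_succ, hd']
    have h6 : (c⁻¹) ^ (n + 1) * c ^ (n + 1) = 1 := by
      rw [← mul_pow, inv_mul_cancel₀ hc, one_pow]
    calc r⁻¹ = r⁻¹ * ((c⁻¹) ^ (n + 1) * c ^ (n + 1)) := by rw [h6, mul_one]
      _ = r⁻¹ * r * ((d : Qb) * c⁻¹ * c ^ (n + 1)) := by rw [h5]; ring
      _ = (d : Qb) * c⁻¹ * c ^ (n + 1) := by rw [inv_mul_cancel₀ hr0, one_mul]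
  have hda : (d : Qb) * c⁻¹ ∈ 𝔓.P := 𝔓.P.mul_mem _ _ d.2 hcA
  have h2 := dls_gauss_C_mul (A := 𝔓.P) (π := IsLocalRing.residue ↥𝔓.P) hda (hu.pow (n + 1)).1
  rw [h1]
  refine ⟨h2.1, ?_⟩
  rw [h2.2]
  have h3 : IsLocalRing.residue ↥𝔓.P ⟨(d : Qb) * c⁻¹, hda⟩ = 0 := by
    have : (⟨(d : Qb) * c⁻¹, hda⟩ : ↥𝔓.P) = d * ⟨c⁻¹, hcA⟩ := rfl
    rw [this, map_mul, hc0, mul_zero]
  rw [h3, map_zero, zero_mul]

/-- a function `e ≡ (1, 0)` -/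
theorem dls_exists_e : ∃ (e : ↥(modularFunctionFieldBar (N' * 𝔓.p))) (he : e ∈ s33qOv 𝔓 N' h),
    s33qRes 𝔓 N' h ⟨e, he⟩ = (1, 0) := by
  obtain ⟨e, he⟩ := dls_res_surjective 𝔓 N' h (1, 0)
  exact ⟨e.1, e.2, he⟩

theorem dls_coe_t2w_smul (c : Qb) (g : ↥(modularFunctionFieldBar (N' * 𝔓.p))) :
    ((t2w Qb N' 𝔓.p h (c • g) : ↥(modularFunctionFieldBar (N' * 𝔓.p))) : LaurentSeries Qb) =
      HahnSeries.C c * ((t2w Qb N' 𝔓.p h g : ↥(modularFunctionFieldBar (N' * 𝔓.p))) :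
        LaurentSeries Qb) := by
  rw [s33q_t2w_smul, tbq_coe_smul]

include h in
/-- **the residue of a function which is Gauss at `v_∞` lies in `E = tbBarF 𝔓 N'`** -/
theorem dls_rho_mem (f : ↥(modularFunctionFieldBar (N' * 𝔓.p)))
    (hf : TbGauss 𝔓.P (IsLocalRing.residue ↥𝔓.P) (f : LaurentSeries Qb)) :
    tbRhoFun 𝔓.P (IsLocalRing.residue ↥𝔓.P) (f : LaurentSeries Qb) ∈ tbBarF 𝔓 N' := by
  rcases eq_or_ne f 0 with rfl | hf0
  · rw [ZeroMemClass.coe_zero, tbRhoFun_zero]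
    exact zero_mem _
  have hwf0 : t2w Qb N' 𝔓.p h f ≠ 0 := (map_ne_zero _).mpr hf0
  obtain ⟨c, hc, hu⟩ := dls_exists_unit 𝔓 (N' * 𝔓.p) (t2w Qb N' 𝔓.p h f) hwf0
  obtain ⟨e, he, hres⟩ := dls_exists_e 𝔓 N' h
  have he1 := ((mem_s33qOv 𝔓 N' h e).mp he).1
  have hρe : tbRhoFun 𝔓.P (IsLocalRing.residue ↥𝔓.P) (e : LaurentSeries Qb) = 1 := by
    have h1 := coe_s33qRes_fst 𝔓 N' h ⟨e, he⟩
    rw [hres] at h1
    exact h1.symm
  -- `f e ^ n` is Gauss for both valuations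
  have key : ∃ n : ℕ, f * e ^ n ∈ s33qOv 𝔓 N' h := by
    rcases 𝔓.P.mem_or_inv_mem c with hcA | hcA
    · obtain ⟨n, g, hg, hgG, -⟩ := dls_e_pow 𝔓 N' h e he hres c hcA hc
      refine ⟨n, (mem_s33qOv 𝔓 N' h _).mpr ⟨?_, ?_⟩⟩
      · rw [MulMemClass.coe_mul, dls_coe_pow]
        exact (tbGaussSubring 𝔓.P _).mul_mem hf (dls_rho_pow he1 n).1
      · have h1 : f * e ^ n = (c • f) * g := by
          rw [hg, smul_mul_assoc, mul_smul_comm]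
        rw [h1, map_mul, MulMemClass.coe_mul, dls_coe_t2w_smul]
        exact (tbGaussSubring 𝔓.P _).mul_mem hu.1 hgG
    · refine ⟨0, (mem_s33qOv 𝔓 N' h _).mpr ⟨?_, ?_⟩⟩
      · rw [pow_zero, mul_one]; exact hf
      · rw [pow_zero, mul_one, ← dls_C_inv_mul_C hc
          ((t2w Qb N' 𝔓.p h f : ↥(modularFunctionFieldBar (N' * 𝔓.p))) : LaurentSeries Qb)]
        exact (dls_gauss_C_mul hcA hu.1).1
  obtain ⟨n, hn⟩ := key
  have h2 := s33q_rho_mem_fst 𝔓 N' h hn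
  rw [MulMemClass.coe_mul, dls_coe_pow, tbRhoFun_mul _ _ hf (dls_rho_pow he1 n).1,
    (dls_rho_pow he1 n).2, hρe, one_pow, mul_one] at h2
  exact h2

/-- **functions with `v_∞ = 0` and prescribed `v_0`**: for `r ≠ 0` there is `u ≡ 1` at `v_∞` with
`r⁻¹ u ≡ 1` at `v_0` -/
theorem dls_exists_adjust (r : Qb) (hr0 : r ≠ 0) :
    ∃ u : ↥(modularFunctionFieldBar (N' * 𝔓.p)), u ≠ 0 ∧
      TbGauss 𝔓.P (IsLocalRing.residue ↥𝔓.P) (u : LaurentSeries Qb) ∧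
      tbRhoFun 𝔓.P (IsLocalRing.residue ↥𝔓.P) (u : LaurentSeries Qb) = 1 ∧
      TbGauss 𝔓.P (IsLocalRing.residue ↥𝔓.P)
        ((t2w Qb N' 𝔓.p h (r⁻¹ • u) : ↥(modularFunctionFieldBar (N' * 𝔓.p))) : LaurentSeries Qb) ∧
      tbRhoFun 𝔓.P (IsLocalRing.residue ↥𝔓.P)
        ((t2w Qb N' 𝔓.p h (r⁻¹ • u) : ↥(modularFunctionFieldBar (N' * 𝔓.p))) :
          LaurentSeries Qb) = 1 := by
  obtain ⟨e, he, hres⟩ := dls_exists_e 𝔓 N' h
  obtain ⟨he1, he2⟩ := (mem_s33qOv 𝔓 N' h e).mp he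
  have hρe : tbRhoFun 𝔓.P (IsLocalRing.residue ↥𝔓.P) (e : LaurentSeries Qb) = 1 := by
    have h1 := coe_s33qRes_fst 𝔓 N' h ⟨e, he⟩
    rw [hres] at h1
    exact h1.symm
  have hρe2 : tbRhoFun 𝔓.P (IsLocalRing.residue ↥𝔓.P)
      ((t2w Qb N' 𝔓.p h e : ↥(modularFunctionFieldBar (N' * 𝔓.p))) : LaurentSeries Qb) = 0 := by
    have h1 := coe_s33qRes_snd 𝔓 N' h ⟨e, he⟩
    rw [hres] at h1
    exact h1.symm
  -- the case `r ∈ A`
  have main : ∀ r : Qb, r ≠ 0 → r ∈ 𝔓.P →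
      ∃ u : ↥(modularFunctionFieldBar (N' * 𝔓.p)), u ≠ 0 ∧
      TbGauss 𝔓.P (IsLocalRing.residue ↥𝔓.P) (u : LaurentSeries Qb) ∧
      tbRhoFun 𝔓.P (IsLocalRing.residue ↥𝔓.P) (u : LaurentSeries Qb) = 1 ∧
      TbGauss 𝔓.P (IsLocalRing.residue ↥𝔓.P)
        ((t2w Qb N' 𝔓.p h (r⁻¹ • u) : ↥(modularFunctionFieldBar (N' * 𝔓.p))) : LaurentSeries Qb) ∧
      tbRhoFun 𝔓.P (IsLocalRing.residue ↥𝔓.P)
        ((t2w Qb N' 𝔓.p h (r⁻¹ • u) : ↥(modularFunctionFieldBar (N' * 𝔓.p))) :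
          LaurentSeries Qb) = 1 := by
    intro r hr0 hr
    obtain ⟨n, g, hg, hgG, hgρ⟩ := dls_e_pow 𝔓 N' h e he hres r hr hr0
    set u : ↥(modularFunctionFieldBar (N' * 𝔓.p)) := e ^ n + r • (1 - e ^ n) with hu
    have hen := dls_rho_pow he1 n
    have h1e : TbGauss 𝔓.P (IsLocalRing.residue ↥𝔓.P) ((1 : LaurentSeries Qb) -
        (e : LaurentSeries Qb) ^ n) ∧ tbRhoFun 𝔓.P (IsLocalRing.residue ↥𝔓.P)
        ((1 : LaurentSeries Qb) - (e : LaurentSeries Qb) ^ n) = 0 := by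
      have := dls_rho_sub (tbGaussSubring 𝔓.P (IsLocalRing.residue ↥𝔓.P)).one_mem hen.1
      refine ⟨this.1, ?_⟩
      rw [this.2, hen.2, hρe, one_pow, tbRhoFun_one, sub_self]
    have hcu : (u : LaurentSeries Qb) = (e : LaurentSeries Qb) ^ n +
        HahnSeries.C r * (1 - (e : LaurentSeries Qb) ^ n) := by
      rw [hu, AddMemClass.coe_add, tbq_coe_smul]
      rfl
    have hr1 := dls_gauss_C_mul (A := 𝔓.P) (π := IsLocalRing.residue ↥𝔓.P) hr h1e.1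
    have hG1 : TbGauss 𝔓.P (IsLocalRing.residue ↥𝔓.P) (u : LaurentSeries Qb) := by
      rw [hcu]
      exact (tbGaussSubring 𝔓.P _).add_mem hen.1 hr1.1
    have hρ1 : tbRhoFun 𝔓.P (IsLocalRing.residue ↥𝔓.P) (u : LaurentSeries Qb) = 1 := by
      rw [hcu, tbRhoFun_add _ _ hen.1 hr1.1, hr1.2, h1e.2, mul_zero, add_zero, hen.2, hρe, one_pow]
    -- at `v_0`
    have hru : r⁻¹ • u = g + (1 - e ^ n) := by
      rw [hu, smul_add, smul_smul, inv_mul_cancel₀ hr0, one_smul, hg, smul_smul,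
        inv_mul_cancel₀ hr0, one_smul]
    have hwen := dls_rho_pow he2 n
    have hwρen : tbRhoFun 𝔓.P (IsLocalRing.residue ↥𝔓.P)
        (((t2w Qb N' 𝔓.p h e : ↥(modularFunctionFieldBar (N' * 𝔓.p))) : LaurentSeries Qb) ^ n)
        = 0 := by
      -- `e ^ n = r g` at `v_0`
      have h3 : ((t2w Qb N' 𝔓.p h e : ↥(modularFunctionFieldBar (N' * 𝔓.p))) :
          LaurentSeries Qb) ^ n = HahnSeries.C r *
          ((t2w Qb N' 𝔓.p h g : ↥(modularFunctionFieldBar (N' * 𝔓.p))) : LaurentSeries Qb) := by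
        rw [← dls_coe_pow, ← map_pow, hg, dls_coe_t2w_smul]
      rw [h3, (dls_gauss_C_mul hr hgG).2, hgρ, mul_zero]
    have hw1e : TbGauss 𝔓.P (IsLocalRing.residue ↥𝔓.P) ((1 : LaurentSeries Qb) -
        ((t2w Qb N' 𝔓.p h e : ↥(modularFunctionFieldBar (N' * 𝔓.p))) : LaurentSeries Qb) ^ n) ∧
        tbRhoFun 𝔓.P (IsLocalRing.residue ↥𝔓.P) ((1 : LaurentSeries Qb) -
        ((t2w Qb N' 𝔓.p h e : ↥(modularFunctionFieldBar (N' * 𝔓.p))) : LaurentSeries Qb) ^ n)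
          = 1 := by
      have := dls_rho_sub (tbGaussSubring 𝔓.P (IsLocalRing.residue ↥𝔓.P)).one_mem hwen.1
      refine ⟨this.1, ?_⟩
      rw [this.2, hwρen, tbRhoFun_one, sub_zero]
    have hcw : ((t2w Qb N' 𝔓.p h (r⁻¹ • u) : ↥(modularFunctionFieldBar (N' * 𝔓.p))) :
        LaurentSeries Qb) =
        ((t2w Qb N' 𝔓.p h g : ↥(modularFunctionFieldBar (N' * 𝔓.p))) : LaurentSeries Qb) +
        (1 - ((t2w Qb N' 𝔓.p h e : ↥(modularFunctionFieldBar (N' * 𝔓.p))) :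
          LaurentSeries Qb) ^ n) := by
      rw [hru, map_add, map_sub, map_one, map_pow]
      rfl
    have hu0 : u ≠ 0 := by
      intro h0
      rw [h0, ZeroMemClass.coe_zero, tbRhoFun_zero] at hρ1
      exact zero_ne_one hρ1
    refine ⟨u, hu0, hG1, hρ1, ?_, ?_⟩
    · rw [hcw]
      exact (tbGaussSubring 𝔓.P _).add_mem hgG hw1e.1
    · rw [hcw, tbRhoFun_add _ _ hgG hw1e.1, hgρ, hw1e.2, zero_add]
  rcases 𝔓.P.mem_or_inv_mem r with hr | hr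
  · exact main r hr0 hr
  · obtain ⟨u', hu0, hG1, hρ1, hG2, hρ2⟩ := main r⁻¹ (inv_ne_zero hr0) hr
    rw [inv_inv] at hG2 hρ2
    have hU1 : DlsUnit 𝔓.P (IsLocalRing.residue ↥𝔓.P) (u' : LaurentSeries Qb) :=
      ⟨hG1, by rw [hρ1]; exact one_ne_zero⟩
    have hU2 : DlsUnit 𝔓.P (IsLocalRing.residue ↥𝔓.P)
        ((t2w Qb N' 𝔓.p h (r • u') : ↥(modularFunctionFieldBar (N' * 𝔓.p))) : LaurentSeries Qb) :=
      ⟨hG2, by rw [hρ2]; exact one_ne_zero⟩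
    have hinv : r⁻¹ • u'⁻¹ = (r • u')⁻¹ := by
      rw [Algebra.smul_def, Algebra.smul_def, mul_inv, map_inv₀]
    refine ⟨u'⁻¹, inv_ne_zero hu0, hU1.inv.1, ?_, ?_, ?_⟩
    · have := tbRhoFun_inv _ _ hG1 (by rw [hρ1]; exact one_ne_zero)
      rw [hρ1, inv_one] at this
      exact this
    · rw [hinv, map_inv₀]
      exact hU2.inv.1
    · rw [hinv, map_inv₀]
      have := tbRhoFun_inv _ _ hG2 (by rw [hρ2]; exact one_ne_zero)
      rw [hρ2, inv_one] at this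
      exact this

/-- **every non-zero function is, up to a constant and a `p`-th power, a unit for both Gauss
valuations** -/
theorem dls_exists_two_unit (Y : ↥(modularFunctionFieldBar (N' * 𝔓.p))) (hY : Y ≠ 0) :
    ∃ (c : Qb) (u : ↥(modularFunctionFieldBar (N' * 𝔓.p))), c ≠ 0 ∧ u ≠ 0 ∧
      DlsUnit 𝔓.P (IsLocalRing.residue ↥𝔓.P)
        ((c • Y * u ^ 𝔓.p : ↥(modularFunctionFieldBar (N' * 𝔓.p))) : LaurentSeries Qb) ∧
      DlsUnit 𝔓.P (IsLocalRing.residue ↥𝔓.P)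
        ((t2w Qb N' 𝔓.p h (c • Y * u ^ 𝔓.p) : ↥(modularFunctionFieldBar (N' * 𝔓.p))) :
          LaurentSeries Qb) := by
  obtain ⟨c₁, hc₁, hu₁⟩ := dls_exists_unit 𝔓 (N' * 𝔓.p) Y hY
  have hwY : t2w Qb N' 𝔓.p h Y ≠ 0 := (map_ne_zero _).mpr hY
  obtain ⟨c₂, hc₂, hu₂⟩ := dls_exists_unit 𝔓 (N' * 𝔓.p) (t2w Qb N' 𝔓.p h Y) hwY
  obtain ⟨r, hr⟩ := IsAlgClosed.exists_pow_nat_eq (c₂ / c₁) 𝔓.hp.pos
  have hr0 : r ≠ 0 := by
    rintro rfl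
    rw [zero_pow 𝔓.hp.ne_zero] at hr
    exact (div_ne_zero hc₂ hc₁) hr.symm
  obtain ⟨u, hu0, hG1, hρ1, hG2, hρ2⟩ := dls_exists_adjust 𝔓 N' h r hr0
  have hU1 : DlsUnit 𝔓.P (IsLocalRing.residue ↥𝔓.P) (u : LaurentSeries Qb) :=
    ⟨hG1, by rw [hρ1]; exact one_ne_zero⟩
  have hU2 : DlsUnit 𝔓.P (IsLocalRing.residue ↥𝔓.P)
      ((t2w Qb N' 𝔓.p h (r⁻¹ • u) : ↥(modularFunctionFieldBar (N' * 𝔓.p))) : LaurentSeries Qb) :=
    ⟨hG2, by rw [hρ2]; exact one_ne_zero⟩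
  refine ⟨c₁, u, hc₁, hu0, ?_, ?_⟩
  · rw [MulMemClass.coe_mul, tbq_coe_smul, dls_coe_pow]
    exact hu₁.mul (hU1.pow _)
  · have h1 : ((t2w Qb N' 𝔓.p h (c₁ • Y * u ^ 𝔓.p) : ↥(modularFunctionFieldBar (N' * 𝔓.p))) :
        LaurentSeries Qb) =
        (HahnSeries.C c₂ * ((t2w Qb N' 𝔓.p h Y : ↥(modularFunctionFieldBar (N' * 𝔓.p))) :
          LaurentSeries Qb)) *
        ((t2w Qb N' 𝔓.p h (r⁻¹ • u) : ↥(modularFunctionFieldBar (N' * 𝔓.p))) :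
          LaurentSeries Qb) ^ 𝔓.p := by
      rw [map_mul, map_pow, MulMemClass.coe_mul, dls_coe_t2w_smul, dls_coe_t2w_smul, dls_coe_pow,
        mul_pow, ← map_pow, inv_pow, hr]
      have h2 : (HahnSeries.C c₂ : LaurentSeries Qb) * HahnSeries.C (c₂ / c₁)⁻¹ =
          HahnSeries.C c₁ := by
        rw [← map_mul]
        congr 1
        field_simp
      rw [← h2]
      ring
    rw [h1]
    exact hu₂.mul (hU2.pow _)

end

end Fermat.Agent.Delta
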