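/-
DELTA / I6 (helper3), package (K), file 8: **the reduction of a modular function on `Z_∞` and its
slopes**.

For `Y ∈ F_{N' p}ˣ`: `dlsRed 𝔓 N' h Y ∈ E = tbBarF 𝔓 N'` is a reduction of `Y` up to a constant for
the Gauss valuation `v_∞` (unique up to `kˣ`); `dlsSlope 𝔓 N' h Y s = ord_s (dlsRed Y) mod p` for a
place `s` of `E` (= a point of the component `Z_∞ ≅ X₀(N')_k`).

INTERFACE with the local side of DELTA: `DlsFin` (non-cuspidal places), `DlsEis` (slopes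
proportional to those of a vertical function), `DlsVert`, `DlsHeckeOrd`.
-/
import Mathlib
import Fermat.Agent.Lib.Delta.Slope.TwoVal
import Fermat.Agent.Lib.Curve.PlaceBasic

set_option autoImplicit false
set_option linter.unusedSectionVars false
set_option linter.unusedVariables false
set_option linter.style.haveILetI false
set_option synthInstance.maxHeartbeats 400000

namespace Fermat.Agent.Delta

open ModularCurve HahnSeries Fermat.Agent.T1 Fermat.Agent.T2 Fermat.Agent.TW Fermat.Agent.S24Lib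
  Fermat.Agent.S33Q Fermat.Agent.S33 Fermat.Agent.S05Lib AlgebraicCurve Fermat.Agent.Curve

local notation "Qb" => AlgebraicClosure ℚ

noncomputable section

attribute [local instance] s33g_neZero

variable (𝔓 : FFPlace) (N' : ℕ) [NeZero N'] (h : ¬ 𝔓.p ∣ N')

include h in
/-- every unit of the function field has a reduction in `E`, up to a constant -/
theorem dls_exists_red (Y : (↥(modularFunctionFieldBar (N' * 𝔓.p)))ˣ) :
    ∃ y : ↥(tbBarF 𝔓 N'), DlsRedTo 𝔓.P (IsLocalRing.residue ↥𝔓.P)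
      ((Y : ↥(modularFunctionFieldBar (N' * 𝔓.p))) : LaurentSeries Qb)
      (y : LaurentSeries (IsLocalRing.ResidueField ↥𝔓.P)) := by
  obtain ⟨c, hc, hu⟩ := dls_exists_unit 𝔓 (N' * 𝔓.p) (Y : ↥(modularFunctionFieldBar (N' * 𝔓.p)))
    Y.ne_zero
  have hmem := dls_rho_mem 𝔓 N' h (c • (Y : ↥(modularFunctionFieldBar (N' * 𝔓.p))))
    (by rw [tbq_coe_smul]; exact hu.1)
  rw [tbq_coe_smul] at hmem
  refine ⟨⟨_, hmem⟩, ?_⟩
  have h1 := (dls_redTo_of_gauss hu.1 hu.2).C_mul (inv_ne_zero hc)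
  rwa [dls_C_inv_mul_C hc] at h1

/-- **a normalised reduction of `Y` on `Z_∞`** (unique up to `kˣ`) -/
def dlsRed (Y : (↥(modularFunctionFieldBar (N' * 𝔓.p)))ˣ) : ↥(tbBarF 𝔓 N') :=
  (dls_exists_red 𝔓 N' h Y).choose

theorem dlsRed_spec (Y : (↥(modularFunctionFieldBar (N' * 𝔓.p)))ˣ) :
    DlsRedTo 𝔓.P (IsLocalRing.residue ↥𝔓.P)
      ((Y : ↥(modularFunctionFieldBar (N' * 𝔓.p))) : LaurentSeries Qb)
      ((dlsRed 𝔓 N' h Y : ↥(tbBarF 𝔓 N')) : LaurentSeries (IsLocalRing.ResidueField ↥𝔓.P)) :=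
  (dls_exists_red 𝔓 N' h Y).choose_spec

theorem dlsRed_ne_zero (Y : (↥(modularFunctionFieldBar (N' * 𝔓.p)))ˣ) : dlsRed 𝔓 N' h Y ≠ 0 := by
  intro h0
  have := (dlsRed_spec 𝔓 N' h Y).ne_zero_right
  rw [h0] at this
  exact this rfl

/-- `φ(Y) = dlog (dlsRed Y)` -/
theorem dlsPhi_eq_log_red (Y : (↥(modularFunctionFieldBar (N' * 𝔓.p)))ˣ) :
    dlsPhi 𝔓 ((Y : ↥(modularFunctionFieldBar (N' * 𝔓.p))) : LaurentSeries Qb) =
      dlsLog ((dlsRed 𝔓 N' h Y : ↥(tbBarF 𝔓 N')) :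
        LaurentSeries (IsLocalRing.ResidueField ↥𝔓.P)) :=
  (dlsRed_spec 𝔓 N' h Y).phi_eq

/-- the slope of `Y` at a place `s` of the component `Z_∞`, modulo `p` -/
def dlsSlope (Y : (↥(modularFunctionFieldBar (N' * 𝔓.p)))ˣ)
    (s : Place (IsLocalRing.ResidueField ↥𝔓.P) ↥(tbBarF 𝔓 N')) : ZMod 𝔓.p :=
  ((s.ord (dlsRed 𝔓 N' h Y) : ℤ) : ZMod 𝔓.p)

/-- any reduction in `E` computes the orders -/
theorem dls_ord_red_eq (Y : (↥(modularFunctionFieldBar (N' * 𝔓.p)))ˣ) (y : ↥(tbBarF 𝔓 N'))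
    (hy : DlsRedTo 𝔓.P (IsLocalRing.residue ↥𝔓.P)
      ((Y : ↥(modularFunctionFieldBar (N' * 𝔓.p))) : LaurentSeries Qb)
      (y : LaurentSeries (IsLocalRing.ResidueField ↥𝔓.P)))
    (s : Place (IsLocalRing.ResidueField ↥𝔓.P) ↥(tbBarF 𝔓 N')) :
    s.ord (dlsRed 𝔓 N' h Y) = s.ord y := by
  obtain ⟨u, hu0, hu⟩ := hy.unique (dlsRed_spec 𝔓 N' h Y)
  have h1 : dlsRed 𝔓 N' h Y = algebraMap (IsLocalRing.ResidueField ↥𝔓.P) ↥(tbBarF 𝔓 N') u * y := by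
    apply Subtype.ext
    rw [hu, MulMemClass.coe_mul]
    congr 1
    rw [HahnSeries.C_apply, ← algebraMap_laurentSeries_eq_single]
    rfl
  have hy0 : y ≠ 0 := by
    rintro rfl
    exact hy.ne_zero_right rfl
  rw [h1, s.ord_mul ((map_ne_zero _).mpr hu0) hy0, PlaceAux.ord_algebraMap, zero_add]

/-- **any reduction in `E` computes the slope** -/
theorem dlsSlope_eq_of_redTo (Y : (↥(modularFunctionFieldBar (N' * 𝔓.p)))ˣ) (y : ↥(tbBarF 𝔓 N'))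
    (hy : DlsRedTo 𝔓.P (IsLocalRing.residue ↥𝔓.P)
      ((Y : ↥(modularFunctionFieldBar (N' * 𝔓.p))) : LaurentSeries Qb)
      (y : LaurentSeries (IsLocalRing.ResidueField ↥𝔓.P)))
    (s : Place (IsLocalRing.ResidueField ↥𝔓.P) ↥(tbBarF 𝔓 N')) :
    dlsSlope 𝔓 N' h Y s = ((s.ord y : ℤ) : ZMod 𝔓.p) := by
  rw [dlsSlope, dls_ord_red_eq 𝔓 N' h Y y hy s]

/-- the slope computed from a Gauss normalisation `c Y` -/
theorem dlsSlope_eq_of_gauss (Y : (↥(modularFunctionFieldBar (N' * 𝔓.p)))ˣ) {c : Qb} (hc : c ≠ 0)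
    (hg : TbGauss 𝔓.P (IsLocalRing.residue ↥𝔓.P)
      (HahnSeries.C c * ((Y : ↥(modularFunctionFieldBar (N' * 𝔓.p))) : LaurentSeries Qb)))
    (y : ↥(tbBarF 𝔓 N')) (hy0 : y ≠ 0)
    (hy : tbRhoFun 𝔓.P (IsLocalRing.residue ↥𝔓.P)
      (HahnSeries.C c * ((Y : ↥(modularFunctionFieldBar (N' * 𝔓.p))) : LaurentSeries Qb)) =
      (y : LaurentSeries (IsLocalRing.ResidueField ↥𝔓.P)))
    (s : Place (IsLocalRing.ResidueField ↥𝔓.P) ↥(tbBarF 𝔓 N')) :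
    dlsSlope 𝔓 N' h Y s = ((s.ord y : ℤ) : ZMod 𝔓.p) := by
  apply dlsSlope_eq_of_redTo
  have h0 : tbRhoFun 𝔓.P (IsLocalRing.residue ↥𝔓.P)
      (HahnSeries.C c * ((Y : ↥(modularFunctionFieldBar (N' * 𝔓.p))) : LaurentSeries Qb)) ≠ 0 := by
    rw [hy]
    exact fun h1 => hy0 (Subtype.ext h1)
  have h1 := (dls_redTo_of_gauss hg h0).C_mul (inv_ne_zero hc)
  rwa [dls_C_inv_mul_C hc, hy] at h1

/-- slopes are additive -/
theorem dlsSlope_mul (Y Y' : (↥(modularFunctionFieldBar (N' * 𝔓.p)))ˣ)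
    (s : Place (IsLocalRing.ResidueField ↥𝔓.P) ↥(tbBarF 𝔓 N')) :
    dlsSlope 𝔓 N' h (Y * Y') s = dlsSlope 𝔓 N' h Y s + dlsSlope 𝔓 N' h Y' s := by
  have h1 := (dlsRed_spec 𝔓 N' h Y).mul (dlsRed_spec 𝔓 N' h Y')
  rw [dlsSlope_eq_of_redTo 𝔓 N' h (Y * Y') (dlsRed 𝔓 N' h Y * dlsRed 𝔓 N' h Y') h1 s,
    s.ord_mul (dlsRed_ne_zero 𝔓 N' h Y) (dlsRed_ne_zero 𝔓 N' h Y'), Int.cast_add]
  rfl

theorem dlsSlope_one (s : Place (IsLocalRing.ResidueField ↥𝔓.P) ↥(tbBarF 𝔓 N')) :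
    dlsSlope 𝔓 N' h 1 s = 0 := by
  have h1 : DlsRedTo 𝔓.P (IsLocalRing.residue ↥𝔓.P)
      (((1 : (↥(modularFunctionFieldBar (N' * 𝔓.p)))ˣ) : ↥(modularFunctionFieldBar (N' * 𝔓.p))) :
        LaurentSeries Qb) (((1 : ↥(tbBarF 𝔓 N')) : ↥(tbBarF 𝔓 N')) :
        LaurentSeries (IsLocalRing.ResidueField ↥𝔓.P)) := dls_redTo_one
  rw [dlsSlope_eq_of_redTo 𝔓 N' h 1 1 h1 s, Place.ord_one, Int.cast_zero]

theorem dlsSlope_inv (Y : (↥(modularFunctionFieldBar (N' * 𝔓.p)))ˣ)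
    (s : Place (IsLocalRing.ResidueField ↥𝔓.P) ↥(tbBarF 𝔓 N')) :
    dlsSlope 𝔓 N' h Y⁻¹ s = -dlsSlope 𝔓 N' h Y s := by
  have h1 := dlsSlope_mul 𝔓 N' h Y Y⁻¹ s
  rw [mul_inv_cancel, dlsSlope_one] at h1
  exact eq_neg_of_add_eq_zero_right h1.symm

theorem dlsSlope_pow (Y : (↥(modularFunctionFieldBar (N' * 𝔓.p)))ˣ) (n : ℕ)
    (s : Place (IsLocalRing.ResidueField ↥𝔓.P) ↥(tbBarF 𝔓 N')) :
    dlsSlope 𝔓 N' h (Y ^ n) s = n • dlsSlope 𝔓 N' h Y s := by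
  induction n with
  | zero => rw [pow_zero, dlsSlope_one, zero_smul]
  | succ n ih => rw [pow_succ, dlsSlope_mul, ih, succ_nsmul]

/-- `p`-th powers have slope `0` -/
theorem dlsSlope_pow_p (Y : (↥(modularFunctionFieldBar (N' * 𝔓.p)))ˣ)
    (s : Place (IsLocalRing.ResidueField ↥𝔓.P) ↥(tbBarF 𝔓 N')) :
    dlsSlope 𝔓 N' h (Y ^ 𝔓.p) s = 0 := by
  rw [dlsSlope_pow, nsmul_eq_mul, ZMod.natCast_self, zero_mul]

/-- constants have slope `0` -/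
theorem dlsSlope_const_mul (c : Qbˣ) (Y Y' : (↥(modularFunctionFieldBar (N' * 𝔓.p)))ˣ)
    (hYY' : (Y' : ↥(modularFunctionFieldBar (N' * 𝔓.p))) =
      algebraMap Qb _ (c : Qb) * (Y : ↥(modularFunctionFieldBar (N' * 𝔓.p))))
    (s : Place (IsLocalRing.ResidueField ↥𝔓.P) ↥(tbBarF 𝔓 N')) :
    dlsSlope 𝔓 N' h Y' s = dlsSlope 𝔓 N' h Y s := by
  apply dlsSlope_eq_of_redTo
  have h1 := (dlsRed_spec 𝔓 N' h Y).C_mul c.ne_zero
  have h2 : ((Y' : ↥(modularFunctionFieldBar (N' * 𝔓.p))) : LaurentSeries Qb) =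
      HahnSeries.C (c : Qb) * ((Y : ↥(modularFunctionFieldBar (N' * 𝔓.p))) : LaurentSeries Qb) := by
    rw [hYY', MulMemClass.coe_mul]
    congr 1
    rw [HahnSeries.C_apply, ← algebraMap_laurentSeries_eq_single]
    rfl
  rwa [h2]

/-! ### The interface with the local side -/

/-- `s` is a non-cuspidal place of `Z_∞` -/
def DlsFin (s : Place (IsLocalRing.ResidueField ↥𝔓.P) ↥(tbBarF 𝔓 N')) : Prop :=
  0 ≤ s.ord (tbBarJ 𝔓 N')

/-- INPUT (SL) from the local side: the slopes of `Y` are an `𝔽_p`-multiple of the slopes of the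
vertical function `f` at the non-cuspidal places; they vanish at the cusps -/
def DlsEis (f Y : (↥(modularFunctionFieldBar (N' * 𝔓.p)))ˣ) : Prop :=
  ∃ a : ZMod 𝔓.p, (∀ s, DlsFin 𝔓 N' s → dlsSlope 𝔓 N' h Y s = a * dlsSlope 𝔓 N' h f s) ∧
    (∀ s, ¬ DlsFin 𝔓 N' s → dlsSlope 𝔓 N' h Y s = 0)

/-- INPUT (VERT): a vertical function -/
structure DlsVert (f : (↥(modularFunctionFieldBar (N' * 𝔓.p)))ˣ) : Prop where
  /-- multiplicative Eisenstein eigenfunction -/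
  hecke : ∀ ℓ : ℕ, ℓ.Prime → ¬ ℓ ∣ N' * 𝔓.p →
    ∃ (c : Qbˣ) (u : (↥(modularFunctionFieldBar (N' * 𝔓.p)))ˣ),
      tkrHecke (N' * 𝔓.p) ℓ (f : ↥(modularFunctionFieldBar (N' * 𝔓.p))) =
        algebraMap Qb _ (c : Qb) * ((f ^ (ℓ + 1) * u ^ 𝔓.p :
          (↥(modularFunctionFieldBar (N' * 𝔓.p)))ˣ) : ↥(modularFunctionFieldBar (N' * 𝔓.p)))
  /-- some non-cuspidal slope is prime to `p` -/
  slope : ∃ s, DlsFin 𝔓 N' s ∧ dlsSlope 𝔓 N' h f s ≠ 0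

/-- INPUT (E*): `T_ℓ^fun` preserves "`p ∣ ord` at all non-cuspidal places of `Z_∞`" -/
def DlsHeckeOrd : Prop :=
  ∀ ℓ : ℕ, ℓ.Prime → ¬ ℓ ∣ N' * 𝔓.p → ∀ y : (↥(modularFunctionFieldBar (N' * 𝔓.p)))ˣ,
    (∀ s, DlsFin 𝔓 N' s → dlsSlope 𝔓 N' h y s = 0) →
    ∀ (Ty : (↥(modularFunctionFieldBar (N' * 𝔓.p)))ˣ),
      (Ty : ↥(modularFunctionFieldBar (N' * 𝔓.p))) =
        tkrHecke (N' * 𝔓.p) ℓ (y : ↥(modularFunctionFieldBar (N' * 𝔓.p))) →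
      ∀ s, DlsFin 𝔓 N' s → dlsSlope 𝔓 N' h Ty s = 0

end

end Fermat.Agent.Delta
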