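/-
DELTA / I6 (helper3), package (K), file 4: **Hecke eigenclasses give eigen-differentials**.

* `dls_hecke_class` : `T_ℓ [div(Y)/m] = [div(T_ℓ^fun Y)/m]` on `J₀(N)` (`ℓ ∤ N`);
* `dls_phi_eigen`   : if `T_ℓ x = t x` for the Kummer class `x = [div(Y)/p]`, then
  `(U_ℓ + ℓ V_ℓ) φ(Y) = t φ(Y)` for `φ = dlsPhi 𝔓` (`ℓ ≠ p`).
-/
import Mathlib
import Fermat.Agent.Lib.Delta.Slope.Phi
import Fermat.Agent.Lib.T3.Hecke.Norm
import Fermat.Agent.Lib.Alpha.Tate.Kummer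

set_option autoImplicit false
set_option linter.unusedSectionVars false
set_option linter.unusedVariables false
set_option linter.style.haveILetI false
set_option synthInstance.maxHeartbeats 400000

namespace Fermat.Agent.Delta

open ModularCurve HahnSeries Fermat.Agent.T1 Fermat.Agent.S23Lib Fermat.Agent.Igusa
  Fermat.Agent.TW Fermat.Agent.S05Lib AlgebraicCurve Fermat.Agent.Alpha Fermat.Agent.T3

local notation "Qb" => AlgebraicClosure ℚ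

noncomputable section

variable (N : ℕ) [NeZero N]

/-- `T_ℓ^fun` preserves `m ∣ div` -/
theorem dls_hecke_dvd {ℓ : ℕ} (hℓ : ℓ.Prime) (hℓN : ¬ ℓ ∣ N) {m : ℕ}
    (Y : (↥(modularFunctionFieldBar N))ˣ)
    (hY : ∀ v : Place Qb ↥(modularFunctionFieldBar N),
      (m : ℤ) ∣ v.ord (Y : ↥(modularFunctionFieldBar N)))
    (v : Place Qb ↥(modularFunctionFieldBar N)) :
    (m : ℤ) ∣ v.ord ((tkrHeckeUnits N ℓ Y : (↥(modularFunctionFieldBar N))ˣ) :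
      ↥(modularFunctionFieldBar N)) := by
  haveI : Fact ℓ.Prime := ⟨hℓ⟩
  haveI : NeZero ℓ := ⟨hℓ.ne_zero⟩
  rw [tkrHeckeUnits_coe, ← t3k_heckeDiv_principal N ℓ hℓN Y.ne_zero
    (D := alpfDiv (K := Qb) Y) (fun w => alpfDiv_apply Y w) v]
  rcases Nat.eq_zero_or_pos m with rfl | hm
  · -- `m = 0`: the divisor of `Y` vanishes
    have h0 : alpfDiv (K := Qb) Y = 0 := by
      ext w
      rw [alpfDiv_apply]
      have := hY w
      rw [Nat.cast_zero, zero_dvd_iff] at this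
      rw [this]
      rfl
    rw [h0, map_zero]
    exact dvd_refl _
  · rw [← alpf_smul_divQuot hY, map_zsmul, Finsupp.smul_apply, smul_eq_mul]
    exact dvd_mul_right _ _

/-- **`T_ℓ [div(Y)/m] = [div(T_ℓ^fun Y)/m]`** -/
theorem dls_hecke_class {ℓ : ℕ} (hℓ : ℓ.Prime) (hℓN : ¬ ℓ ∣ N) {m : ℕ} (hm : m ≠ 0)
    (Y : (↥(modularFunctionFieldBar N))ˣ)
    (hY : ∀ v : Place Qb ↥(modularFunctionFieldBar N),
      (m : ℤ) ∣ v.ord (Y : ↥(modularFunctionFieldBar N))) :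
    heckeOperatorBar N ⟨ℓ, hℓ⟩ (alpfClass hm Y hY) =
      alpfClass hm (tkrHeckeUnits N ℓ Y) (dls_hecke_dvd N hℓ hℓN Y hY) := by
  haveI : Fact ℓ.Prime := ⟨hℓ⟩
  haveI : NeZero ℓ := ⟨hℓ.ne_zero⟩
  have h1 : ∀ x : JZero N, heckeOperatorBar N ⟨ℓ, hℓ⟩ x = heckeOperatorAlong Qb N ℓ x :=
    fun _ => rfl
  rw [h1]
  unfold alpfClass
  rw [t3h_heckeOperatorAlong_mk]
  apply congrArg Pic0.mk
  apply Subtype.ext
  ext v
  show heckeDivBar (t3h_alphaIntegral N ℓ) (t3h_betaIntegral N ℓ) (alpfDivQuot (K := Qb) m Y) v =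
    alpfDivQuot (K := Qb) m (tkrHeckeUnits N ℓ Y) v
  rw [alpfDivQuot_apply, tkrHeckeUnits_coe]
  have h2 := t3k_heckeDiv_principal N ℓ hℓN Y.ne_zero
    (D := alpfDiv (K := Qb) Y) (fun w => alpfDiv_apply Y w) v
  rw [← alpf_smul_divQuot hY, map_zsmul, Finsupp.smul_apply, smul_eq_mul] at h2
  rw [← h2, Int.mul_ediv_cancel_left _ (by exact_mod_cast hm)]

variable (𝔓 : FFPlace)

/-- (K3) **eigenclasses give eigen-differentials** -/
theorem dls_phi_eigen {ℓ : ℕ} [NeZero ℓ] (hℓ : ℓ.Prime) (hℓN : ¬ ℓ ∣ N) (hℓp : ℓ ≠ 𝔓.p)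
    (Y : (↥(modularFunctionFieldBar N))ˣ)
    (hY : ∀ v : Place Qb ↥(modularFunctionFieldBar N),
      ((𝔓.p : ℕ) : ℤ) ∣ v.ord (Y : ↥(modularFunctionFieldBar N)))
    (t : ℕ)
    (hT : heckeOperatorBar N ⟨ℓ, hℓ⟩ (alpfClass 𝔓.hp.ne_zero Y hY) =
      t • alpfClass 𝔓.hp.ne_zero Y hY) :
    dlsT ℓ (dlsPhi 𝔓 ((Y : ↥(modularFunctionFieldBar N)) : LaurentSeries Qb)) =
      HahnSeries.C ((t : ℕ) : (IsLocalRing.ResidueField ↥𝔓.P)) *
        dlsPhi 𝔓 ((Y : ↥(modularFunctionFieldBar N)) : LaurentSeries Qb) := by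
  have hm := 𝔓.hp.ne_zero
  have hTYd := dls_hecke_dvd N hℓ hℓN Y hY
  -- the Kummer class of `T Y / Y ^ t` vanishes
  have hYW : Y ∈ tWsub Qb N 𝔓.p := hY
  have hYt : Y ^ t ∈ tWsub Qb N 𝔓.p := Subgroup.pow_mem _ hYW t
  have hZ : tkrHeckeUnits N ℓ Y * (Y ^ t)⁻¹ ∈ tWsub Qb N 𝔓.p :=
    Subgroup.mul_mem _ hTYd (Subgroup.inv_mem _ hYt)
  have e0 : (⟨tkrHeckeUnits N ℓ Y * (Y ^ t)⁻¹, hZ⟩ : tWsub Qb N 𝔓.p) * ⟨Y ^ t, hYt⟩ =
      ⟨tkrHeckeUnits N ℓ Y, hTYd⟩ := Subtype.ext (inv_mul_cancel_right _ _)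
  have e1 : ((Multiplicative.toAdd (alptKumW N 𝔓.p hm ⟨Y ^ t, hYt⟩) :
      ↥(Submodule.torsionBy ℤ (JZero N) ((𝔓.p : ℕ) : ℤ))) : JZero N) =
      t • alpfClass hm Y hY := by
    have h1 : (⟨Y ^ t, hYt⟩ : tWsub Qb N 𝔓.p) = (⟨Y, hY⟩ : tWsub Qb N 𝔓.p) ^ t := rfl
    rw [h1, MonoidHom.map_pow, toAdd_pow, Submodule.coe_smul_of_tower, alptKumW_coe]
  have e2 := congrArg (fun z => ((Multiplicative.toAdd (alptKumW N 𝔓.p hm z) :
      ↥(Submodule.torsionBy ℤ (JZero N) ((𝔓.p : ℕ) : ℤ))) : JZero N)) e0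
  simp only [MonoidHom.map_mul, toAdd_mul, Submodule.coe_add] at e2
  rw [e1, alptKumW_coe, alptKumW_coe] at e2
  have e3 : alpfClass hm (tkrHeckeUnits N ℓ Y * (Y ^ t)⁻¹) hZ = 0 := by
    have e4 : alpfClass hm (tkrHeckeUnits N ℓ Y) hTYd = t • alpfClass hm Y hY := by
      rw [← dls_hecke_class N hℓ hℓN hm Y hY, hT]
    rw [e4] at e2
    exact add_eq_right.mp e2
  obtain ⟨u, hu⟩ := (alpt_kummer_ker N 𝔓.p hm _ hZ).mp e3
  -- `T Y = Y ^ t * u ^ p`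
  have hrel : tkrHeckeUnits N ℓ Y = Y ^ t * u ^ 𝔓.p := by
    rw [← hu, mul_comm, inv_mul_cancel_right]
  have hrel' : ((tkrHecke N ℓ (Y : ↥(modularFunctionFieldBar N)) : ↥(modularFunctionFieldBar N)) :
      LaurentSeries Qb) = ((Y : ↥(modularFunctionFieldBar N)) : LaurentSeries Qb) ^ t *
        ((u : ↥(modularFunctionFieldBar N)) : LaurentSeries Qb) ^ 𝔓.p := by
    have := congrArg (fun z : (↥(modularFunctionFieldBar N))ˣ =>
      ((z : ↥(modularFunctionFieldBar N)) : LaurentSeries Qb)) hrel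
    simpa using this
  rw [← dls_phi_hecke 𝔓 N hℓ hℓN hℓp (Y : ↥(modularFunctionFieldBar N)), hrel']
  have hY0 : ((Y : ↥(modularFunctionFieldBar N)) : LaurentSeries Qb) ≠ 0 := fun h0 =>
    Y.ne_zero (Subtype.ext h0)
  have hu0 : ((u : ↥(modularFunctionFieldBar N)) : LaurentSeries Qb) ≠ 0 := fun h0 =>
    u.ne_zero (Subtype.ext h0)
  obtain ⟨y, hy⟩ := dls_nf 𝔓 N (Y : ↥(modularFunctionFieldBar N)).2 hY0
  rw [dls_phi_mul 𝔓 N (pow_mem (Y : ↥(modularFunctionFieldBar N)).2 t)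
    (pow_mem (u : ↥(modularFunctionFieldBar N)).2 _) (pow_ne_zero _ hY0) (pow_ne_zero _ hu0),
    dls_phi_pow 𝔓 N (u : ↥(modularFunctionFieldBar N)).2, add_zero, (hy.pow t).phi_eq, hy.phi_eq,
    dlsLog_pow, nsmul_eq_mul, map_natCast]

end

end Fermat.Agent.Delta
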