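/-
DELTA / I6 (helper3), package (K), file 5: **constants of a derivation on a separable function
field in characteristic `p` are `p`-th powers**.

`dls_pth_power`: `E / k(t)` separable algebraic, `k` perfect of characteristic `p`, `ι : E → Ω` a ring
homomorphism into a field with a derivation-like map `D` (`D (x + y) = D x + D y`,
`D (x y) = D x · y + x · D y`) such that `D (ι t) ≠ 0`.  Then every `y ∈ E` with `D (ι y) = 0` is a
`p`-th power in `E`.
(`[E : E^p] = p` is prime, so the field of constants, which does not contain `t`, is `E^p`.)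
-/
import Mathlib

set_option autoImplicit false
set_option linter.unusedSectionVars false
set_option linter.unusedVariables false
set_option linter.style.haveILetI false

namespace Fermat.Agent.Delta

open IntermediateField Polynomial

noncomputable section

section PthPow

variable {k E Ω : Type*} [Field k] [Field E] [Algebra k E] [Field Ω] (p : ℕ) [hp : Fact p.Prime]
  [CharP k p] [PerfectRing k p]

/-- the subfield `E^p` -/
def dlsPthSub (E : Type*) [Field E] (p : ℕ) [Fact p.Prime] [CharP E p] : Subfield E :=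
  (frobenius E p).fieldRange

theorem mem_dlsPthSub [CharP E p] (y : E) : y ∈ dlsPthSub E p ↔ ∃ u : E, u ^ p = y := by
  rw [dlsPthSub, RingHom.mem_fieldRange]
  rfl

variable (ι : E →+* Ω) (D : Ω → Ω) (hadd : ∀ x y, D (x + y) = D x + D y)
  (hmul : ∀ x y, D (x * y) = D x * y + x * D y)

include hadd hmul in
theorem dls_deriv_one : D 1 = 0 := by
  have h := hmul 1 1
  rw [mul_one, one_mul, mul_one] at h
  exact left_eq_add.mp h

include hadd hmul in
theorem dls_deriv_zero : D 0 = 0 := by
  have h := hadd 0 0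
  rw [add_zero] at h
  exact left_eq_add.mp h

include hadd hmul in
theorem dls_deriv_neg (x : Ω) : D (-x) = -D x := by
  have h := hadd x (-x)
  rw [add_neg_cancel, dls_deriv_zero D hadd hmul] at h
  exact eq_neg_of_add_eq_zero_right h.symm

include hadd hmul in
theorem dls_deriv_pow (x : Ω) (n : ℕ) : D (x ^ (n + 1)) = ((n + 1 : ℕ) : Ω) * x ^ n * D x := by
  induction n with
  | zero => simp
  | succ n ih =>
    rw [pow_succ, hmul, ih]
    push_cast
    ring

include hadd hmul in
theorem dls_deriv_inv {x : Ω} (hx : x ≠ 0) (h0 : D x = 0) : D x⁻¹ = 0 := by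
  have h := hmul x x⁻¹
  rw [mul_inv_cancel₀ hx, dls_deriv_one D hadd hmul, h0, zero_mul, zero_add] at h
  rcases mul_eq_zero.mp h.symm with h1 | h1
  · exact absurd h1 hx
  · exact h1

include hadd hmul in
/-- **constants of a derivation are `p`-th powers** -/
theorem dls_pth_power (t : E) [Algebra.IsSeparable ↥(k⟮t⟯) E] (hDt : D (ι t) ≠ 0)
    (y : E) (hy : D (ι y) = 0) : ∃ u : E, y = u ^ p := by
  haveI : CharP E p := charP_of_injective_algebraMap (algebraMap k E).injective p
  haveI : CharP Ω p := charP_of_injective_ringHom (f := ι.comp (algebraMap k E))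
    (RingHom.injective _) p
  haveI : ExpChar ↥(k⟮t⟯) p :=
    haveI : CharP ↥(k⟮t⟯) p := charP_of_injective_algebraMap (algebraMap k ↥(k⟮t⟯)).injective p
    ExpChar.prime hp.out
  set K₀ : Subfield E := dlsPthSub E p with hK₀
  -- `p`-th powers are constants
  have hconst : ∀ b : E, b ∈ K₀ → D (ι b) = 0 := by
    intro b hb
    obtain ⟨u, rfl⟩ := (mem_dlsPthSub p b).mp hb
    obtain ⟨n, hn⟩ : ∃ n, p = n + 1 := ⟨p - 1, (Nat.sub_add_cancel hp.out.one_le).symm⟩
    rw [map_pow, hn, dls_deriv_pow D hadd hmul, ← hn, CharP.cast_eq_zero, zero_mul, zero_mul]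
  have htK : t ∉ K₀ := fun h => hDt (hconst t h)
  -- `t` is integral of degree `p` over `E^p`
  have htp : t ^ p ∈ K₀ := (mem_dlsPthSub p _).mpr ⟨t, rfl⟩
  set a : ↥K₀ := ⟨t ^ p, htp⟩ with ha
  have hirr : Irreducible (X ^ p - C a : (↥K₀)[X]) := by
    apply X_pow_sub_C_irreducible_of_prime hp.out
    intro b hb
    have h1 : ((b : ↥K₀) : E) ^ p = t ^ p := by
      have := congrArg (Subtype.val : ↥K₀ → E) hb
      simpa using this
    have h2 : ((b : ↥K₀) : E) = t := by
      have h3 : frobenius E p (b : E) = frobenius E p t := h1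
      exact frobenius_inj E p h3
    exact htK (h2 ▸ b.2)
  have hroot : aeval t (X ^ p - C a : (↥K₀)[X]) = 0 := by
    rw [map_sub, map_pow, aeval_X, aeval_C]
    show t ^ p - ((a : ↥K₀) : E) = 0
    rw [ha, sub_self]
  have hmonic : (X ^ p - C a : (↥K₀)[X]).Monic := monic_X_pow_sub_C a hp.out.ne_zero
  have hint : IsIntegral ↥K₀ t := ⟨_, hmonic, hroot⟩
  have hmin : minpoly ↥K₀ t = X ^ p - C a :=
    (minpoly.eq_of_irreducible_of_monic hirr hroot hmonic).symm
  -- `E = E^p (t)`
  have htop : (↥K₀)⟮t⟯ = ⊤ := by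
    rw [eq_top_iff]
    intro z _
    -- `z ∈ k(t)(z^p)`
    have h1 : z ∈ (↥(k⟮t⟯))⟮z ^ p⟯ := by
      rw [← adjoin_simple_eq_adjoin_pow_expChar_of_isSeparable' ↥(k⟮t⟯) E z p]
      exact mem_adjoin_simple_self _ z
    have h2 : ((↥(k⟮t⟯))⟮z ^ p⟯).toSubfield ≤ ((↥K₀)⟮t⟯).toSubfield := by
      rw [adjoin_toSubfield, Subfield.closure_le]
      rintro x (⟨⟨x₀, hx₀⟩, rfl⟩ | hx)
      · -- `x₀ ∈ k(t)`
        show x₀ ∈ ((↥K₀)⟮t⟯).toSubfield
        have h3 : (k⟮t⟯).toSubfield ≤ ((↥K₀)⟮t⟯).toSubfield := by
          rw [adjoin_toSubfield, Subfield.closure_le]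
          rintro x (⟨c, rfl⟩ | hx)
          · -- constants are `p`-th powers
            obtain ⟨d, hd⟩ := surjective_frobenius k p c
            have : algebraMap k E c ∈ K₀ := (mem_dlsPthSub p _).mpr ⟨algebraMap k E d, by
              rw [← map_pow, ← hd]; rfl⟩
            exact ((↥K₀)⟮t⟯).algebraMap_mem ⟨_, this⟩
          · rw [Set.mem_singleton_iff] at hx
            rw [hx]
            exact mem_adjoin_simple_self _ t
        exact h3 hx₀
      · rw [Set.mem_singleton_iff] at hx
        rw [hx]
        have : z ^ p ∈ K₀ := (mem_dlsPthSub p _).mpr ⟨z, rfl⟩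
        exact ((↥K₀)⟮t⟯).algebraMap_mem ⟨_, this⟩
    exact h2 h1
  have hfin : Module.finrank ↥K₀ E = p := by
    have h1 := IntermediateField.adjoin.finrank hint
    rw [hmin, natDegree_X_pow_sub_C, htop] at h1
    rw [← h1]
    exact (IntermediateField.finrank_top').symm
  -- the field of constants
  set Cst : IntermediateField ↥K₀ E :=
    { carrier := {z | D (ι z) = 0}
      mul_mem' := fun {x y} hx hy => by
        show D (ι (x * y)) = 0
        have hx' : D (ι x) = 0 := hx
        have hy' : D (ι y) = 0 := hy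
        rw [map_mul, hmul, hx', hy', zero_mul, mul_zero, add_zero]
      one_mem' := by
        show D (ι 1) = 0
        rw [map_one, dls_deriv_one D hadd hmul]
      add_mem' := fun {x y} hx hy => by
        show D (ι (x + y)) = 0
        have hx' : D (ι x) = 0 := hx
        have hy' : D (ι y) = 0 := hy
        rw [map_add, hadd, hx', hy', add_zero]
      zero_mem' := by
        show D (ι 0) = 0
        rw [map_zero, dls_deriv_zero D hadd hmul]
      algebraMap_mem' := fun b => hconst _ b.2
      inv_mem' := fun x hx => by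
        show D (ι x⁻¹) = 0
        have hx' : D (ι x) = 0 := hx
        rcases eq_or_ne x 0 with rfl | hx0
        · rw [inv_zero, map_zero, dls_deriv_zero D hadd hmul]
        · rw [map_inv₀]
          exact dls_deriv_inv D hadd hmul ((map_ne_zero ι).mpr hx0) hx' } with hCst
  haveI : IsSimpleOrder (IntermediateField ↥K₀ E) :=
    IntermediateField.isSimpleOrder_of_finrank_prime ↥K₀ E (hfin ▸ hp.out)
  rcases IsSimpleOrder.eq_bot_or_eq_top Cst with h1 | h1
  · have hyC : y ∈ Cst := hy
    rw [h1, IntermediateField.mem_bot] at hyC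
    obtain ⟨b, rfl⟩ := hyC
    obtain ⟨u, hu⟩ := (mem_dlsPthSub p _).mp b.2
    exact ⟨u, hu.symm⟩
  · exfalso
    have : t ∈ Cst := by rw [h1]; exact IntermediateField.mem_top
    exact hDt this

end PthPow

end

end Fermat.Agent.Delta
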