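/-
DELTA / I6 (helper3), package (K), file 9: **(K4) the kernel of `(φ_∞, φ_0)` on `J₀(N' p)[p]` is the
formal part**.

`dls_ker`: if `p ∣ div Y` and `φ(Y) = 0 = φ(w_p Y)` (`φ = dlsPhi 𝔓`), then the Kummer class
`[div Y / p]` lies in the formal part `s33gC 𝔓 N' h` (rigid level `N'`).

Proof: up to a constant and a `p`-th power `Y` is a unit for both Gauss valuations; its two
residues `ȳ_∞, ȳ_0 ∈ E` have vanishing logarithmic derivative, so they are `p`-th powers in `E`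
(`dls_pth_power`); lifting the roots (`res` is onto `E × E`) and dividing, `Y ≡ (1, 1)`.
-/
import Mathlib
import Fermat.Agent.Lib.Delta.Slope.Red
import Fermat.Agent.Lib.Delta.Slope.PthPow
import Fermat.Agent.Lib.T1.S18.AllLevels

set_option autoImplicit false
set_option linter.unusedSectionVars false
set_option linter.unusedVariables false
set_option linter.style.haveILetI false
set_option synthInstance.maxHeartbeats 400000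

namespace Fermat.Agent.Delta

open ModularCurve HahnSeries Fermat.Agent.T1 Fermat.Agent.T2 Fermat.Agent.TW Fermat.Agent.S24Lib
  Fermat.Agent.S33Q Fermat.Agent.S33 Fermat.Agent.S05Lib AlgebraicCurve Fermat.Agent.Curve
  Fermat.Agent.Alpha Fermat.Agent.S23Lib Fermat.Agent.Igusa IntermediateField

local notation "Qb" => AlgebraicClosure ℚ

noncomputable section

attribute [local instance] t2gp_fact t2gp_isAlgClosed t2gp_charP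
attribute [local instance] s33g_neZero

variable (𝔓 : FFPlace) (N' : ℕ) [NeZero N'] (h : ¬ 𝔓.p ∣ N')

include h in
/-- elements of `E` killed by `θ` are `p`-th powers in `E` (rigid level) -/
theorem dls_theta_zero_pth (h49 : 4 ∣ N' ∨ 9 ∣ N') (y : ↥(tbBarF 𝔓 N'))
    (hy : qTheta (y : LaurentSeries (IsLocalRing.ResidueField ↥𝔓.P)) = 0) :
    ∃ v : ↥(tbBarF 𝔓 N'), y = v ^ 𝔓.p := by
  haveI := (tkr_barOK 𝔓 h49 h).sep
  refine dls_pth_power (k := IsLocalRing.ResidueField ↥𝔓.P) (E := ↥(tbBarF 𝔓 N'))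
    (Ω := LaurentSeries (IsLocalRing.ResidueField ↥𝔓.P)) 𝔓.p
    (algebraMap ↥(tbBarF 𝔓 N') (LaurentSeries (IsLocalRing.ResidueField ↥𝔓.P)))
    qTheta qTheta_add qTheta_mul (tbBarJ 𝔓 N') ?_ y hy
  exact thetaJ_ne_zero (IsLocalRing.ResidueField ↥𝔓.P)

theorem dls_class_congr {N : ℕ} [NeZero N] {m m' : ℕ} (e : m = m') (hm : m ≠ 0) (hm' : m' ≠ 0)
    (y : (↥(modularFunctionFieldBar N))ˣ)
    (hy : ∀ v : Place Qb ↥(modularFunctionFieldBar N),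
      (m : ℤ) ∣ v.ord (y : ↥(modularFunctionFieldBar N)))
    (hy' : ∀ v : Place Qb ↥(modularFunctionFieldBar N),
      (m' : ℤ) ∣ v.ord (y : ↥(modularFunctionFieldBar N))) :
    alpfClass hm y hy = alpfClass hm' y hy' := by
  subst e
  rfl

/-- a Gauss unit whose reduced logarithmic derivative vanishes has a residue killed by `θ` -/
theorem dls_theta_rho_eq_zero {z : LaurentSeries Qb}
    (hz : DlsUnit 𝔓.P (IsLocalRing.residue ↥𝔓.P) z) (hφ : dlsPhi 𝔓 z = 0) :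
    qTheta (tbRhoFun 𝔓.P (IsLocalRing.residue ↥𝔓.P) z) = 0 := by
  have h1 := (dls_redTo_of_gauss hz.1 hz.2).phi_eq
  rw [hφ, dlsLog] at h1
  rcases div_eq_zero_iff.mp h1.symm with h2 | h2
  · exact h2
  · exact absurd h2 hz.2

/-- (K4) **the kernel of `(φ_∞, φ_0)` on `J₀(N' p)[p]` is contained in the formal part** -/
theorem dls_ker (h49 : 4 ∣ N' ∨ 9 ∣ N') (Y : (↥(modularFunctionFieldBar (N' * 𝔓.p)))ˣ)
    (hY : ∀ v : Place Qb ↥(modularFunctionFieldBar (N' * 𝔓.p)),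
      ((𝔓.p : ℕ) : ℤ) ∣ v.ord (Y : ↥(modularFunctionFieldBar (N' * 𝔓.p))))
    (h1 : dlsPhi 𝔓 ((Y : ↥(modularFunctionFieldBar (N' * 𝔓.p))) : LaurentSeries Qb) = 0)
    (h2 : dlsPhi 𝔓 ((t2w Qb N' 𝔓.p h (Y : ↥(modularFunctionFieldBar (N' * 𝔓.p))) :
      ↥(modularFunctionFieldBar (N' * 𝔓.p))) : LaurentSeries Qb) = 0) :
    alpfClass 𝔓.hp.ne_zero Y hY ∈ s33gC 𝔓 N' h := by
  have hm := 𝔓.hp.ne_zero
  set Y0 : ↥(modularFunctionFieldBar (N' * 𝔓.p)) := (Y : ↥(modularFunctionFieldBar (N' * 𝔓.p)))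
    with hY0
  obtain ⟨c, u, hc, hu0, hU1, hU2⟩ := dls_exists_two_unit 𝔓 N' h Y0 Y.ne_zero
  set Y2 : ↥(modularFunctionFieldBar (N' * 𝔓.p)) := c • Y0 * u ^ 𝔓.p with hY2
  -- `φ(Y₂) = φ(Y)` and `φ(w Y₂) = φ(w Y)`
  have hY00 : (Y0 : LaurentSeries Qb) ≠ 0 := fun h0 => Y.ne_zero (Subtype.ext h0)
  have hu00 : (u : LaurentSeries Qb) ≠ 0 := fun h0 => hu0 (Subtype.ext h0)
  have hφ1 : dlsPhi 𝔓 (Y2 : LaurentSeries Qb) = 0 := by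
    rw [hY2, MulMemClass.coe_mul, tbq_coe_smul, dls_coe_pow, mul_assoc, dls_phi_C_mul 𝔓 hc,
      dls_phi_mul 𝔓 (N' * 𝔓.p) Y0.2 (pow_mem u.2 _) hY00 (pow_ne_zero _ hu00),
      dls_phi_pow 𝔓 (N' * 𝔓.p) u.2, add_zero]
    exact h1
  have hwY00 : ((t2w Qb N' 𝔓.p h Y0 : ↥(modularFunctionFieldBar (N' * 𝔓.p))) : LaurentSeries Qb)
      ≠ 0 := fun h0 => (map_ne_zero (t2w Qb N' 𝔓.p h)).mpr Y.ne_zero (Subtype.ext h0)
  have hwu00 : ((t2w Qb N' 𝔓.p h u : ↥(modularFunctionFieldBar (N' * 𝔓.p))) : LaurentSeries Qb)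
      ≠ 0 := fun h0 => (map_ne_zero (t2w Qb N' 𝔓.p h)).mpr hu0 (Subtype.ext h0)
  have hφ2 : dlsPhi 𝔓 ((t2w Qb N' 𝔓.p h Y2 : ↥(modularFunctionFieldBar (N' * 𝔓.p))) :
      LaurentSeries Qb) = 0 := by
    rw [hY2, map_mul, map_pow, MulMemClass.coe_mul, dls_coe_t2w_smul, dls_coe_pow, mul_assoc,
      dls_phi_C_mul 𝔓 hc,
      dls_phi_mul 𝔓 (N' * 𝔓.p) (t2w Qb N' 𝔓.p h Y0).2 (pow_mem (t2w Qb N' 𝔓.p h u).2 _) hwY00
        (pow_ne_zero _ hwu00),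
      dls_phi_pow 𝔓 (N' * 𝔓.p) (t2w Qb N' 𝔓.p h u).2, add_zero]
    exact h2
  -- the two residues are `p`-th powers in `E`
  have hm1 := dls_rho_mem 𝔓 N' h Y2 hU1.1
  have hm2 := dls_rho_mem 𝔓 N' h (t2w Qb N' 𝔓.p h Y2) hU2.1
  obtain ⟨v₁, hv₁⟩ := dls_theta_zero_pth 𝔓 N' h h49 ⟨_, hm1⟩ (dls_theta_rho_eq_zero 𝔓 hU1 hφ1)
  obtain ⟨v₂, hv₂⟩ := dls_theta_zero_pth 𝔓 N' h h49 ⟨_, hm2⟩ (dls_theta_rho_eq_zero 𝔓 hU2 hφ2)
  have hv₁' : tbRhoFun 𝔓.P (IsLocalRing.residue ↥𝔓.P) (Y2 : LaurentSeries Qb) =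
      (v₁ : LaurentSeries (IsLocalRing.ResidueField ↥𝔓.P)) ^ 𝔓.p :=
    congrArg Subtype.val hv₁
  have hv₂' : tbRhoFun 𝔓.P (IsLocalRing.residue ↥𝔓.P)
      ((t2w Qb N' 𝔓.p h Y2 : ↥(modularFunctionFieldBar (N' * 𝔓.p))) : LaurentSeries Qb) =
      (v₂ : LaurentSeries (IsLocalRing.ResidueField ↥𝔓.P)) ^ 𝔓.p :=
    congrArg Subtype.val hv₂
  have hv₁0 : (v₁ : LaurentSeries (IsLocalRing.ResidueField ↥𝔓.P)) ≠ 0 := by
    intro h0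
    rw [h0, zero_pow hm] at hv₁'
    exact hU1.2 hv₁'
  have hv₂0 : (v₂ : LaurentSeries (IsLocalRing.ResidueField ↥𝔓.P)) ≠ 0 := by
    intro h0
    rw [h0, zero_pow hm] at hv₂'
    exact hU2.2 hv₂'
  -- lift the roots
  obtain ⟨V, hV⟩ := dls_res_surjective 𝔓 N' h (v₁, v₂)
  obtain ⟨hVG1, hVG2⟩ := (mem_s33qOv 𝔓 N' h _).mp V.2
  have hVρ1 : tbRhoFun 𝔓.P (IsLocalRing.residue ↥𝔓.P)
      (((V : ↥(s33qOv 𝔓 N' h)) : ↥(modularFunctionFieldBar (N' * 𝔓.p))) : LaurentSeries Qb) =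
      (v₁ : LaurentSeries (IsLocalRing.ResidueField ↥𝔓.P)) := by
    rw [← coe_s33qRes_fst 𝔓 N' h V, hV]
  have hVρ2 : tbRhoFun 𝔓.P (IsLocalRing.residue ↥𝔓.P)
      ((t2w Qb N' 𝔓.p h ((V : ↥(s33qOv 𝔓 N' h)) : ↥(modularFunctionFieldBar (N' * 𝔓.p))) :
        ↥(modularFunctionFieldBar (N' * 𝔓.p))) : LaurentSeries Qb) =
      (v₂ : LaurentSeries (IsLocalRing.ResidueField ↥𝔓.P)) := by
    rw [← coe_s33qRes_snd 𝔓 N' h V, hV]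
  set V0 : ↥(modularFunctionFieldBar (N' * 𝔓.p)) :=
    ((V : ↥(s33qOv 𝔓 N' h)) : ↥(modularFunctionFieldBar (N' * 𝔓.p))) with hV0
  have hVU1 : DlsUnit 𝔓.P (IsLocalRing.residue ↥𝔓.P) (V0 : LaurentSeries Qb) :=
    ⟨hVG1, by rw [hVρ1]; exact hv₁0⟩
  have hVU2 : DlsUnit 𝔓.P (IsLocalRing.residue ↥𝔓.P)
      ((t2w Qb N' 𝔓.p h V0 : ↥(modularFunctionFieldBar (N' * 𝔓.p))) : LaurentSeries Qb) :=
    ⟨hVG2, by rw [hVρ2]; exact hv₂0⟩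
  have hV00 : V0 ≠ 0 := by
    intro h0
    rw [h0, ZeroMemClass.coe_zero] at hVU1
    exact hVU1.ne_zero rfl
  -- the function `Z = Y₂ / V ^ p ≡ (1, 1)`
  obtain ⟨c', hc'⟩ := IsAlgClosed.exists_pow_nat_eq c 𝔓.hp.pos
  have hc'0 : c' ≠ 0 := by
    rintro rfl
    rw [zero_pow hm] at hc'
    exact hc hc'.symm
  have ht0 : c' • (u * V0⁻¹) ≠ 0 := by
    rw [Algebra.smul_def]
    exact mul_ne_zero ((map_ne_zero _).mpr hc'0) (mul_ne_zero hu0 (inv_ne_zero hV00))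
  set t : (↥(modularFunctionFieldBar (N' * 𝔓.p)))ˣ := Units.mk0 _ ht0 with ht
  have hZeq : ((Y * t ^ 𝔓.p : (↥(modularFunctionFieldBar (N' * 𝔓.p)))ˣ) :
      ↥(modularFunctionFieldBar (N' * 𝔓.p))) = Y2 * (V0 ^ 𝔓.p)⁻¹ := by
    rw [Units.val_mul, Units.val_pow_eq_pow_val, ht, Units.val_mk0, hY2, Algebra.smul_def,
      Algebra.smul_def, mul_pow, mul_pow, ← map_pow, hc', inv_pow]
    ring
  have hZ1 : s33gOne 𝔓 (((Y * t ^ 𝔓.p : (↥(modularFunctionFieldBar (N' * 𝔓.p)))ˣ) :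
      ↥(modularFunctionFieldBar (N' * 𝔓.p))) : LaurentSeries Qb) := by
    rw [hZeq]
    have h3 : ((Y2 * (V0 ^ 𝔓.p)⁻¹ : ↥(modularFunctionFieldBar (N' * 𝔓.p))) : LaurentSeries Qb) =
        (Y2 : LaurentSeries Qb) * ((V0 : LaurentSeries Qb) ^ 𝔓.p)⁻¹ := rfl
    rw [h3]
    have hVp := hVU1.pow 𝔓.p
    refine ⟨(hU1.mul hVp.inv).1, ?_⟩
    rw [tbRhoFun_mul _ _ hU1.1 hVp.inv.1, tbRhoFun_inv _ _ hVp.1 hVp.2, (dls_rho_pow hVG1 _).2,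
      hVρ1, hv₁']
    exact mul_inv_cancel₀ (pow_ne_zero _ hv₁0)
  have hZ2 : s33gOne 𝔓 ((t2w Qb N' 𝔓.p h ((Y * t ^ 𝔓.p : (↥(modularFunctionFieldBar (N' * 𝔓.p)))ˣ) :
      ↥(modularFunctionFieldBar (N' * 𝔓.p))) : ↥(modularFunctionFieldBar (N' * 𝔓.p))) :
      LaurentSeries Qb) := by
    rw [hZeq, map_mul, map_inv₀, map_pow]
    have h3 : ((t2w Qb N' 𝔓.p h Y2 * (t2w Qb N' 𝔓.p h V0 ^ 𝔓.p)⁻¹ :
        ↥(modularFunctionFieldBar (N' * 𝔓.p))) : LaurentSeries Qb) =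
        ((t2w Qb N' 𝔓.p h Y2 : ↥(modularFunctionFieldBar (N' * 𝔓.p))) : LaurentSeries Qb) *
        (((t2w Qb N' 𝔓.p h V0 : ↥(modularFunctionFieldBar (N' * 𝔓.p))) : LaurentSeries Qb)
          ^ 𝔓.p)⁻¹ := rfl
    rw [h3]
    have hVp := hVU2.pow 𝔓.p
    refine ⟨(hU2.mul hVp.inv).1, ?_⟩
    rw [tbRhoFun_mul _ _ hU2.1 hVp.inv.1, tbRhoFun_inv _ _ hVp.1 hVp.2, (dls_rho_pow hVG2 _).2,
      hVρ2, hv₂']
    exact mul_inv_cancel₀ (pow_ne_zero _ hv₂0)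
  have hZcong : Y * t ^ 𝔓.p ∈ s33gCong 𝔓 N' h := (mem_s33gCong 𝔓 N' h _).mpr ⟨hZ1, hZ2⟩
  -- the classes agree
  have htp : ∀ v : Place Qb ↥(modularFunctionFieldBar (N' * 𝔓.p)),
      ((𝔓.p : ℕ) : ℤ) ∣ v.ord ((t ^ 𝔓.p : (↥(modularFunctionFieldBar (N' * 𝔓.p)))ˣ) :
        ↥(modularFunctionFieldBar (N' * 𝔓.p))) := by
    intro v
    rw [Units.val_pow_eq_pow_val, ← zpow_natCast, v.ord_zpow]
    exact dvd_mul_right _ _
  have hZd : ∀ v : Place Qb ↥(modularFunctionFieldBar (N' * 𝔓.p)),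
      ((𝔓.p : ℕ) : ℤ) ∣ v.ord ((Y * t ^ 𝔓.p : (↥(modularFunctionFieldBar (N' * 𝔓.p)))ˣ) :
        ↥(modularFunctionFieldBar (N' * 𝔓.p))) := by
    intro v
    rw [Units.val_mul, v.ord_mul Y.ne_zero (t ^ 𝔓.p).ne_zero]
    exact dvd_add (hY v) (htp v)
  have hcls : alpfClass hm Y hY = alpfClass hm (Y * t ^ 𝔓.p) hZd := by
    rw [alpfClass_mul hm Y (t ^ 𝔓.p) hY htp hZd, alpfClass_pow hm t htp, add_zero]
  rw [mem_s33gC]
  have hZd' : ∀ v : Place Qb ↥(modularFunctionFieldBar (N' * 𝔓.p)),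
      ((𝔓.p ^ 1 : ℕ) : ℤ) ∣ v.ord ((Y * t ^ 𝔓.p : (↥(modularFunctionFieldBar (N' * 𝔓.p)))ˣ) :
        ↥(modularFunctionFieldBar (N' * 𝔓.p))) := by
    intro v
    rw [pow_one]
    exact hZd v
  refine ⟨1, Y * t ^ 𝔓.p, hZd', hZcong, ?_⟩
  rw [hcls]
  exact dls_class_congr (pow_one _).symm hm (s33g_pow_ne_zero 𝔓 1) _ hZd hZd'

end

end Fermat.Agent.Delta
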